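import Fermat.Agent.Deformation.Coordinates
import Mathlib.RingTheory.DualNumber
import Mathlib.LinearAlgebra.Dual.Lemmas

/-!
# Finitely many coordinates from the finiteness of the tangent space
-/

set_option autoImplicit false

namespace Fermat.Agent.Deformation

open IsLocalRing GaloisRep

variable {𝒪 : Type} [CommRing 𝒪] [IsLocalRing 𝒪] {ρbar : ResidualGaloisRep (ResidueField 𝒪)}

/-- The `𝒪`-algebra structure on the dual numbers used in `TangentFinite`. -/
@[reducible]
noncomputable def dualAlgebra (𝒪 : Type) [CommRing 𝒪] [IsLocalRing 𝒪] :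
    Algebra 𝒪 (DualNumber (ResidueField 𝒪)) :=
  ((algebraMap (ResidueField 𝒪) (DualNumber (ResidueField 𝒪))).comp
    (algebraMap 𝒪 (ResidueField 𝒪))).toAlgebra

attribute [local instance 2000] dualAlgebra

theorem dualAlgebraMap_apply (a : 𝒪) :
    algebraMap 𝒪 (DualNumber (ResidueField 𝒪)) a = TrivSqZeroExt.inl (residue 𝒪 a) := rfl

theorem isArtinianTestAlgebra_dualNumber [Finite (ResidueField 𝒪)] :
    IsArtinianTestAlgebra 𝒪 (DualNumber (ResidueField 𝒪)) := by
  have : Finite (DualNumber (ResidueField 𝒪)) :=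
    inferInstanceAs (Finite (ResidueField 𝒪 × ResidueField 𝒪))
  have hu : ∀ x : DualNumber (ResidueField 𝒪), IsUnit x ↔ TrivSqZeroExt.fst x ≠ 0 := fun x => by
    rw [TrivSqZeroExt.isUnit_iff_isUnit_fst, isUnit_iff_ne_zero]
  refine isArtinianTestAlgebra_of_finite ⟨fun a ha => ?_⟩ fun x => ?_
  · rw [hu, dualAlgebraMap_apply, TrivSqZeroExt.fst_inl] at ha
    exact residue_ne_zero_iff_isUnit a |>.mp ha
  · obtain ⟨a, ha⟩ := residue_surjective (TrivSqZeroExt.fst x)
    refine ⟨a, ?_⟩
    rw [mem_maximalIdeal, mem_nonunits_iff, hu, not_not, TrivSqZeroExt.fst_sub,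
      dualAlgebraMap_apply, TrivSqZeroExt.fst_inl, ha, sub_self]

variable (Φ : Frame ρbar)
  (𝒟 : ∀ ⦃A : Type⦄ [CommRing A] [IsLocalRing A] [Algebra 𝒪 A], GaloisRepAdic A → Prop)

/-- Deformations to the dual numbers in normal form are finite in number. -/
theorem finite_isDef_dualNumber [Finite (ResidueField 𝒪)] (hfin : TangentFinite 𝒪 ρbar 𝒟) :
    Finite {M : MatRep (DualNumber (ResidueField 𝒪)) // IsDef Φ 𝒟 M} := by
  have hT := isArtinianTestAlgebra_dualNumber (𝒪 := 𝒪)
  have := hT.isLocalHom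
  let ψ : ResidueField 𝒪 →+* ResidueField (DualNumber (ResidueField 𝒪)) :=
    (residue (DualNumber (ResidueField 𝒪))).comp
      (algebraMap (ResidueField 𝒪) (DualNumber (ResidueField 𝒪)))
  have hψ : ResidueField.map (algebraMap 𝒪 (DualNumber (ResidueField 𝒪))) = ψ := by
    refine RingHom.ext fun x => ?_
    obtain ⟨a, rfl⟩ := residue_surjective x
    rw [ResidueField.map_residue]
    rfl
  have hres : ∀ M : {M : MatRep (DualNumber (ResidueField 𝒪)) // IsDef Φ 𝒟 M},
      M.1.rep.residual.IsEquiv (ρbar.baseChangeAlong ψ) :=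
    fun M => hψ ▸ M.2.normal.residual_isEquiv
  unfold TangentFinite at hfin
  refine @Finite.of_injective _ _ hfin
    (fun M => Quotient.mk _ ⟨M.1.rep, M.2.cond, hres M⟩) fun M M' h => ?_
  exact Subtype.ext (M.2.normal.eq_of_isEquiv M'.2.normal (Quotient.exact h))

/-- Finitely many entries separate the deformations to the dual numbers. -/
theorem exists_separating [Finite (ResidueField 𝒪)] (hfin : TangentFinite 𝒪 ρbar 𝒟) :
    ∃ F : Finset (GQ × Fin 2 × Fin 2), ∀ M M' : MatRep (DualNumber (ResidueField 𝒪)),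
      IsDef Φ 𝒟 M → IsDef Φ 𝒟 M' → (∀ t ∈ F, entry M t = entry M' t) → M = M' := by
  classical
  have := finite_isDef_dualNumber Φ 𝒟 hfin
  cases nonempty_fintype {M : MatRep (DualNumber (ResidueField 𝒪)) // IsDef Φ 𝒟 M}
  have hsep : ∀ p : {M : MatRep (DualNumber (ResidueField 𝒪)) // IsDef Φ 𝒟 M} ×
      {M : MatRep (DualNumber (ResidueField 𝒪)) // IsDef Φ 𝒟 M},
      ∃ t, p.1 ≠ p.2 → entry p.1.1 t ≠ entry p.2.1 t := by
    intro p
    by_contra! h
    have hne := (h (1, 0, 0)).1
    exact hne (Subtype.ext (MatRep.ext (MonoidHom.ext fun σ => Matrix.ext fun i j =>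
      (h (σ, i, j)).2)))
  choose f hf using hsep
  refine ⟨Finset.univ.image f, fun M M' hM hM' h => ?_⟩
  by_contra hne
  exact hf (⟨M, hM⟩, ⟨M', hM'⟩) (fun e => hne (congrArg Subtype.val e))
    (h _ (Finset.mem_image_of_mem f (Finset.mem_univ _)))

variable {Φ 𝒟}

/-- `F` is a system of coordinates. -/
def Separates (Φ : Frame ρbar)
    (𝒟 : ∀ ⦃A : Type⦄ [CommRing A] [IsLocalRing A] [Algebra 𝒪 A], GaloisRepAdic A → Prop)
    (F : Finset (GQ × Fin 2 × Fin 2)) : Prop :=
  ∀ M M' : MatRep (DualNumber (ResidueField 𝒪)),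
    IsDef Φ 𝒟 M → IsDef Φ 𝒟 M' → (∀ t ∈ F, entry M t = entry M' t) → M = M'

/-- If the entries generate a test algebra, then its maximal ideal is generated by the maximal
ideal of `𝒪`, the coordinates and the squares. -/
theorem maximalIdeal_le [Finite (ResidueField 𝒪)] (h𝒟 : IsDeformationCondition 𝒪 𝒟)
    {F : Finset (GQ × Fin 2 × Fin 2)} (hF : Separates Φ 𝒟 F)
    {B : Type} [CommRing B] [IsLocalRing B] [Algebra 𝒪 B] (hB : IsArtinianTestAlgebra 𝒪 B)
    {M : MatRep B} (hM : IsDef Φ 𝒟 M)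
    (hgen : Algebra.adjoin 𝒪 (Set.range (entry M)) = ⊤) :
    maximalIdeal B ≤ (maximalIdeal 𝒪).map (algebraMap 𝒪 B) ⊔
      Ideal.span (Set.range fun t : F => coord Φ M t) ⊔ maximalIdeal B ^ 2 := by
  set W := (maximalIdeal 𝒪).map (algebraMap 𝒪 B) ⊔
      Ideal.span (Set.range fun t : F => coord Φ M t) ⊔ maximalIdeal B ^ 2 with hW
  have hlocB := hB.isLocalHom
  have hWm : W ≤ maximalIdeal B := by
    refine sup_le (sup_le (Ideal.map_le_iff_le_comap.mpr fun a ha => map_nonunit _ a ha)
      (Ideal.span_le.mpr ?_)) (Ideal.pow_le_self two_ne_zero)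
    rintro _ ⟨t, rfl⟩
    exact coord_mem hM.normal _
  intro z hz
  by_contra hzW
  -- the quotient `B / W` is an algebra over the residue field
  let Q := B ⧸ W
  let sQ : ResidueField 𝒪 →+* Q :=
    Ideal.Quotient.lift (maximalIdeal 𝒪) ((Ideal.Quotient.mk W).comp (algebraMap 𝒪 B)) fun a ha =>
      Ideal.Quotient.eq_zero_iff_mem.mpr
        (Ideal.mem_sup_left (Ideal.mem_sup_left (Ideal.mem_map_of_mem _ ha)))
  let _ : Algebra (ResidueField 𝒪) Q := sQ.toAlgebra
  have hsQ : ∀ a : 𝒪, algebraMap (ResidueField 𝒪) Q (residue 𝒪 a) =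
      Ideal.Quotient.mk W (algebraMap 𝒪 B a) := fun a => rfl
  have hz1 : Ideal.Quotient.mk W z ∉ Submodule.span (ResidueField 𝒪) {(1 : Q)} := by
    intro h
    obtain ⟨c, hc⟩ := Submodule.mem_span_singleton.mp h
    obtain ⟨a, rfl⟩ := residue_surjective c
    rw [← Algebra.algebraMap_eq_smul_one, hsQ, Ideal.Quotient.eq] at hc
    by_cases ha : IsUnit a
    · have : algebraMap 𝒪 B a ∈ maximalIdeal B := by
        simpa using Submodule.add_mem _ (hWm hc) hz
      exact this (ha.map _)
    · refine hzW ?_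
      simpa using Submodule.sub_mem W
        (Ideal.mem_sup_left (Ideal.mem_sup_left (Ideal.mem_map_of_mem _ ha))) hc
  obtain ⟨lam, hlamz, hlam⟩ :=
    Submodule.exists_dual_map_eq_bot_of_notMem hz1 inferInstance
  have hlam1 : lam 1 = 0 :=
    LinearMap.mem_ker.mp (LinearMap.le_ker_iff_map.mpr hlam (Submodule.mem_span_singleton_self _))
  have hlamO : ∀ a : 𝒪, lam (Ideal.Quotient.mk W (algebraMap 𝒪 B a)) = 0 := fun a => by
    rw [← hsQ, Algebra.algebraMap_eq_smul_one, map_smul, hlam1, smul_zero]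
  obtain ⟨c, hc⟩ := exists_augmentation hB
  let l : B → ResidueField 𝒪 := fun b => lam (Ideal.Quotient.mk W b)
  have hdec : ∀ b, ∃ a : 𝒪, b - algebraMap 𝒪 B a ∈ maximalIdeal B :=
    exists_sub_mem_maximalIdeal hB
  have hlmul : ∀ b b', l (b * b') = c b * l b' + c b' * l b := by
    intro b b'
    obtain ⟨a, ha⟩ := hdec b
    obtain ⟨a', ha'⟩ := hdec b'
    rw [hc b a ha, hc b' a' ha']
    have hprod : Ideal.Quotient.mk W ((b - algebraMap 𝒪 B a) * (b' - algebraMap 𝒪 B a')) = 0 :=
      Ideal.Quotient.eq_zero_iff_mem.mpr (Ideal.mem_sup_right (by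
        rw [pow_two]; exact Ideal.mul_mem_mul ha ha'))
    have : Ideal.Quotient.mk W (b * b') =
        residue 𝒪 a • Ideal.Quotient.mk W b' + residue 𝒪 a' • Ideal.Quotient.mk W b -
          residue 𝒪 a • residue 𝒪 a' • (1 : Q) := by
      rw [Algebra.smul_def, Algebra.smul_def, Algebra.smul_def, Algebra.smul_def, hsQ, hsQ, mul_one]
      rw [← sub_eq_zero, ← hprod]
      simp only [map_mul, map_sub]
      ring
    simp only [l, this, map_add, map_sub, map_smul, hlam1, smul_eq_mul, mul_zero, sub_zero]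
  let ψ : B →ₐ[𝒪] DualNumber (ResidueField 𝒪) :=
    { toFun := fun b => TrivSqZeroExt.inl (c b) + TrivSqZeroExt.inr (l b)
      map_one' := by
        ext <;> simp [l, hlam1, -DualNumber.inr_eq_smul_eps]
      map_mul' := fun b b' => by
        ext
        · simp [-DualNumber.inr_eq_smul_eps]
        · simp [hlmul, -DualNumber.inr_eq_smul_eps]
          ring
      map_zero' := by
        ext <;> simp [l, -DualNumber.inr_eq_smul_eps]
      map_add' := fun b b' => by
        ext <;> simp [l, -DualNumber.inr_eq_smul_eps]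
      commutes' := fun a => by
        rw [dualAlgebraMap_apply]
        ext
        · simp [ResidueField.algebraMap_eq, -DualNumber.inr_eq_smul_eps]
        · simp [l, hlamO, -DualNumber.inr_eq_smul_eps, -Ideal.Quotient.mk_algebraMap] }
  let ψ₀ : B →ₐ[𝒪] DualNumber (ResidueField 𝒪) :=
    { ((TrivSqZeroExt.inlHom (ResidueField 𝒪) (ResidueField 𝒪)).comp (c : B →+* ResidueField 𝒪))
        with
      commutes' := fun a => by
        simp only [dualAlgebraMap_apply]
        exact congrArg TrivSqZeroExt.inl ((c.commutes a).trans (by rw [ResidueField.algebraMap_eq])) }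
  have hBA := hB.isArtinian
  have hD := isArtinianTestAlgebra_dualNumber (𝒪 := 𝒪)
  have hl : IsLocalHom (ψ : B →+* DualNumber (ResidueField 𝒪)) := isLocalHom_of_isArtinian _
  have hl₀ : IsLocalHom (ψ₀ : B →+* DualNumber (ResidueField 𝒪)) := isLocalHom_of_isArtinian _
  have heq : M.map (ψ : B →+* DualNumber (ResidueField 𝒪)) hl = M.map (ψ₀ : B →+* DualNumber (ResidueField 𝒪)) hl₀ := by
    refine hF _ _ (hM.map h𝒟 hB hD ψ hl) (hM.map h𝒟 hB hD ψ₀ hl₀) fun t ht => ?_
    show ψ (entry M t) = ψ₀ (entry M t)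
    have hmem : coord Φ M t ∈ W :=
      Ideal.mem_sup_left (Ideal.mem_sup_right (Ideal.subset_span ⟨⟨t, ht⟩, rfl⟩))
    have hl0 : l (coord Φ M t) = 0 := by
      simp only [l, Ideal.Quotient.eq_zero_iff_mem.mpr hmem, map_zero]
    have hl1 : l (entry M t) = 0 := by
      simpa [l, coord, map_sub, hlamO, -Ideal.Quotient.mk_algebraMap] using hl0
    show TrivSqZeroExt.inl (c (entry M t)) + TrivSqZeroExt.inr (l (entry M t)) = _
    rw [hl1, TrivSqZeroExt.inr_zero, add_zero]
    rfl
  have hall : ∀ b, ψ b = ψ₀ b := by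
    intro b
    have hle : Algebra.adjoin 𝒪 (Set.range (entry M)) ≤ AlgHom.equalizer ψ ψ₀ :=
      Algebra.adjoin_le (by
        rintro _ ⟨t, rfl⟩
        exact congrArg (fun N : MatRep (DualNumber (ResidueField 𝒪)) => N.toHom t.1 t.2.1 t.2.2) heq)
    exact hle (hgen.ge Algebra.mem_top)
  have := congrArg TrivSqZeroExt.snd (hall z)
  refine hlamz ?_
  simpa [ψ, ψ₀, l, -DualNumber.inr_eq_smul_eps] using this

/-- The coordinates generate: every entry is in the image of the evaluation at the coordinates. -/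
theorem entry_mem_range [Finite (ResidueField 𝒪)] (h𝒟 : IsDeformationCondition 𝒪 𝒟)
    {F : Finset (GQ × Fin 2 × Fin 2)} (hF : Separates Φ 𝒟 F)
    {A : Type} [CommRing A] [IsLocalRing A] [Algebra 𝒪 A] (hA : IsArtinianTestAlgebra 𝒪 A)
    {M : MatRep A} (hM : IsDef Φ 𝒟 M) (f : MvPowerSeries F 𝒪 →ₐ[𝒪] A)
    (hf : ∀ t : F, f (MvPowerSeries.X t) = coord Φ M t) (t : GQ × Fin 2 × Fin 2) :
    entry M t ∈ f.range := by
  have := finite_of_isArtinianTestAlgebra hA
  let S : Subalgebra 𝒪 A := Algebra.adjoin 𝒪 (Set.range (entry M))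
  have hS : IsLocalRing S := isLocalRing_subalgebra S
  obtain ⟨N, hN, hNM⟩ := hM.exists_descend h𝒟 hA S
    fun σ i j => Algebra.subset_adjoin ⟨(σ, i, j), rfl⟩
  have hT := isArtinianTestAlgebra_subalgebra hA S
  have hgen : Algebra.adjoin 𝒪 (Set.range (entry N)) = ⊤ := by
    refine Subalgebra.map_injective (f := S.val) Subtype.val_injective ?_
    rw [AlgHom.map_adjoin, Algebra.map_top, Subalgebra.range_val, ← Set.range_comp]
    congr 2
    funext t
    exact hNM _ _ _
  obtain ⟨n, hn⟩ := exists_pow_maximalIdeal_eq_bot (A := S)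
  obtain ⟨g, hg⟩ := exists_algHom_mvPowerSeries (𝒪 := 𝒪) (maximalIdeal S) n hn
    (fun t : F => coord Φ N t) (fun t => coord_mem hN.normal _)
  have hcoord : ∀ t, ((coord Φ N t : S) : A) = coord Φ M t := fun t => by
    simp [coord, entry, hNM]
  have hfg : f = S.val.comp g := by
    have := hA.isArtinian
    obtain ⟨m, hm⟩ := exists_pow_maximalIdeal_eq_bot (A := A)
    refine algHom_mvPowerSeries_ext (maximalIdeal A) m hm f _ (fun t => ?_) fun t => ?_
    · rw [hf]; exact coord_mem hM.normal _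
    · rw [hf, AlgHom.comp_apply, hg]; exact (hcoord _).symm
  -- `g` is surjective by successive approximation
  let mP := maximalIdeal (MvPowerSeries F 𝒪)
  set J := (maximalIdeal 𝒪).map (algebraMap 𝒪 S) ⊔
      Ideal.span (Set.range fun t : F => coord Φ N t) with hJ
  have hm2 : maximalIdeal S ≤ J ⊔ maximalIdeal S ^ 2 := maximalIdeal_le h𝒟 hF hT hN hgen
  have hmJ : maximalIdeal S ≤ J := by
    have h : ∀ k, maximalIdeal S ≤ J ⊔ maximalIdeal S ^ (k + 1) := by
      intro k
      induction k with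
      | zero => simp
      | succ k ih =>
        refine hm2.trans (sup_le le_sup_left ?_)
        rw [pow_two]
        calc maximalIdeal S * maximalIdeal S ≤ maximalIdeal S * (J ⊔ maximalIdeal S ^ (k + 1)) :=
              Ideal.mul_mono_right ih
          _ ≤ J ⊔ maximalIdeal S ^ (k + 1 + 1) := by
              rw [Ideal.mul_sup, ← pow_succ']
              exact sup_le_sup_right Ideal.mul_le_right _
    have := h n
    rwa [pow_succ', hn, Ideal.mul_bot, sup_bot_eq] at this
  have hJg : J ≤ mP.map g := by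
    refine sup_le ?_ (Ideal.span_le.mpr ?_)
    · refine Ideal.map_le_iff_le_comap.mpr fun a ha => ?_
      rw [Ideal.mem_comap, ← g.commutes]
      exact Ideal.mem_map_of_mem g (mem_maximalIdeal_mvPowerSeries_iff.mpr (by
        simpa [MvPowerSeries.algebraMap_apply] using ha))
    · rintro _ ⟨t, rfl⟩
      simp only [SetLike.mem_coe]
      rw [show coord Φ N (t : GQ × Fin 2 × Fin 2) = g (MvPowerSeries.X t) from
        (hg t).symm]
      exact Ideal.mem_map_of_mem g (mem_maximalIdeal_mvPowerSeries_iff.mpr (by simp))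
  have hstep : ∀ (i : ℕ) (b : S), ∃ p, b - g p ∈ maximalIdeal S ^ i := by
    intro i
    induction i with
    | zero => exact fun b => ⟨0, by simp⟩
    | succ i ih =>
      intro b
      obtain ⟨p, hp⟩ := ih b
      have hmi : b - g p ∈ (mP ^ i).map g := by
        rw [Ideal.map_pow]
        exact Ideal.pow_right_mono (hmJ.trans hJg) i hp
      suffices ∀ y ∈ (mP ^ i).map g, ∃ q, y - g q ∈ maximalIdeal S ^ (i + 1) by
        obtain ⟨q, hq⟩ := this _ hmi
        exact ⟨p + q, by rwa [map_add, ← sub_sub]⟩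
      intro y hy
      refine Submodule.span_induction (p := fun y _ => ∃ q, y - g q ∈ maximalIdeal S ^ (i + 1))
        ?_ ?_ ?_ ?_ hy
      · rintro _ ⟨q, -, rfl⟩
        exact ⟨q, by simp⟩
      · exact ⟨0, by simp⟩
      · rintro x y _ _ ⟨q, hq⟩ ⟨q', hq'⟩
        exact ⟨q + q', by rw [map_add, add_sub_add_comm]; exact add_mem hq hq'⟩
      · rintro s x hx ⟨q, hq⟩
        obtain ⟨a, ha⟩ := exists_sub_mem_maximalIdeal hT s
        refine ⟨algebraMap 𝒪 _ a * q, ?_⟩
        have hx' : x ∈ maximalIdeal S ^ i := by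
          have hle : mP.map g ≤ maximalIdeal S := by
            have hloc : IsLocalHom (algebraMap 𝒪 S) := hT.isLocalHom
            refine Ideal.map_le_iff_le_comap.mpr ?_
            rw [show mP = _ from maximalIdeal_mvPowerSeries_eq]
            refine sup_le (Ideal.map_le_iff_le_comap.mpr fun a ha => ?_) (Ideal.span_le.mpr ?_)
            · show g (MvPowerSeries.C a) ∈ maximalIdeal S
              rw [show MvPowerSeries.C a = algebraMap 𝒪 (MvPowerSeries F 𝒪) a by
                simp [MvPowerSeries.algebraMap_apply], g.commutes]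
              exact map_nonunit _ a ha
            · rintro _ ⟨t, rfl⟩
              show g (MvPowerSeries.X t) ∈ maximalIdeal S
              rw [hg]
              exact coord_mem hN.normal _
          exact Ideal.pow_right_mono hle i ((Ideal.map_pow g mP i).le hx)
        rw [map_mul, g.commutes, smul_eq_mul,
          show s * x - algebraMap 𝒪 S a * g q =
            (s - algebraMap 𝒪 S a) * x + algebraMap 𝒪 S a * (x - g q) by ring, pow_succ']
        exact add_mem (Ideal.mul_mem_mul ha hx') (Ideal.mul_mem_left _ _ (pow_succ' (maximalIdeal S) i ▸ hq))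
  obtain ⟨p, hp⟩ := hstep n ⟨entry M t, Algebra.subset_adjoin ⟨t, rfl⟩⟩
  rw [hn, Ideal.mem_bot, sub_eq_zero] at hp
  exact ⟨p, by rw [hfg]; exact congrArg Subtype.val hp.symm⟩

/-- Deformations with the same coordinates are equal. -/
theorem IsDef.ext [Finite (ResidueField 𝒪)] (h𝒟 : IsDeformationCondition 𝒪 𝒟)
    {F : Finset (GQ × Fin 2 × Fin 2)} (hF : Separates Φ 𝒟 F)
    {A : Type} [CommRing A] [IsLocalRing A] [Algebra 𝒪 A] (hA : IsArtinianTestAlgebra 𝒪 A)
    {M M' : MatRep A} (hM : IsDef Φ 𝒟 M) (hM' : IsDef Φ 𝒟 M')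
    (h : ∀ t ∈ F, coord Φ M t = coord Φ M' t) : M = M' := by
  obtain ⟨S, hS, N, hT, hN, hNM⟩ := IsDef.exists_prod h𝒟 hA hA hM hM'
  have := hA.isArtinian
  have := hT.isArtinian
  obtain ⟨n, hn⟩ := exists_pow_maximalIdeal_eq_bot (A := S)
  obtain ⟨g, hg⟩ := exists_algHom_mvPowerSeries (𝒪 := 𝒪) (maximalIdeal S) n hn
    (fun t : F => coord Φ N t) (fun t => coord_mem hN.normal _)
  obtain ⟨m, hm⟩ := exists_pow_maximalIdeal_eq_bot (A := A)
  have e₁ : ∀ t, ((coord Φ N t : S) : A × A).1 = coord Φ M t := fun t => by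
    simp [coord, entry, hNM]
  have e₂ : ∀ t, ((coord Φ N t : S) : A × A).2 = coord Φ M' t := fun t => by
    simp [coord, entry, hNM]
  have hdiag : ((AlgHom.fst 𝒪 A A).comp S.val).comp g = ((AlgHom.snd 𝒪 A A).comp S.val).comp g := by
    refine algHom_mvPowerSeries_ext (maximalIdeal A) m hm _ _ (fun t => ?_) fun t => ?_
    · show ((g (MvPowerSeries.X t) : S) : A × A).1 ∈ _
      rw [hg, e₁]
      exact coord_mem hM.normal _
    · show ((g (MvPowerSeries.X t) : S) : A × A).1 = ((g (MvPowerSeries.X t) : S) : A × A).2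
      rw [hg, e₁, e₂]
      exact h t t.2
  refine MatRep.ext (MonoidHom.ext fun σ => Matrix.ext fun i j => ?_)
  obtain ⟨p, hp⟩ := entry_mem_range h𝒟 hF hT hN g hg (σ, i, j)
  have h1 := DFunLike.congr_fun hdiag p
  change ((g p : S) : A × A).1 = ((g p : S) : A × A).2 at h1
  rw [show g p = N.toHom σ i j from hp, hNM] at h1
  exact h1

end Fermat.Agent.Deformation
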