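import Fermat.Agent.Deformation.Universal

/-!
# Universality of the deformation ring
-/

set_option autoImplicit false

namespace Fermat.Agent.Deformation

open IsLocalRing GaloisRep

variable {𝒪 : Type} [CommRing 𝒪] [IsLocalRing 𝒪] [IsNoetherianRing 𝒪]
  [Finite (ResidueField 𝒪)] {ρbar : ResidualGaloisRep (ResidueField 𝒪)}
  {Φ : Frame ρbar}
  {𝒟 : ∀ ⦃A : Type⦄ [CommRing A] [IsLocalRing A] [Algebra 𝒪 A], GaloisRepAdic A → Prop}
  {F : Finset (GQ × Fin 2 × Fin 2)}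

omit [IsNoetherianRing 𝒪] in
/-- The quotients of `A` by powers of the maximal ideal are test algebras. -/
theorem isArtinianTestAlgebra_quotient_pow {A : Type} [CommRing A] [IsLocalRing A]
    [IsNoetherianRing A] [Algebra 𝒪 A] [IsLocalHom (algebraMap 𝒪 A)]
    (hres : Function.Surjective (residue A ∘ algebraMap 𝒪 A)) (n : ℕ)
    [IsLocalRing (A ⧸ maximalIdeal A ^ (n + 1))] :
    IsArtinianTestAlgebra 𝒪 (A ⧸ maximalIdeal A ^ (n + 1)) := by
  have : Finite (A ⧸ maximalIdeal A) :=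
    Finite.of_surjective (ResidueField.map (algebraMap 𝒪 A)) fun y => by
      obtain ⟨a, ha⟩ := hres y
      exact ⟨residue 𝒪 a, (ResidueField.map_residue _ a).trans ha⟩
  have : Finite (A ⧸ maximalIdeal A ^ (n + 1)) :=
    Ideal.finite_quotient_pow (IsNoetherian.noetherian _) _
  have hloc : IsLocalHom (Ideal.Quotient.mk (maximalIdeal A ^ (n + 1))) :=
    .of_surjective _ Ideal.Quotient.mk_surjective
  refine isArtinianTestAlgebra_of_finite ⟨fun a ha => ?_⟩ fun x => ?_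
  · exact (inferInstance : IsLocalHom (algebraMap 𝒪 A)).map_nonunit a (hloc.map_nonunit _ ha)
  · obtain ⟨y, rfl⟩ := Ideal.Quotient.mk_surjective x
    obtain ⟨a, ha⟩ := hres (residue A y)
    refine ⟨a, fun h => (Ideal.Quotient.eq.mp ha.symm) (hloc.map_nonunit _ ?_)⟩
    rw [map_sub]
    exact h

omit [IsNoetherianRing 𝒪] in
/-- The condition passes to the quotients of a deformation over a complete ring. -/
theorem isDef_map_quotient_pow (h𝒟 : IsDeformationCondition 𝒪 𝒟) {A : Type} [CommRing A]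
    [IsLocalRing A] [IsNoetherianRing A] [IsAdicComplete (maximalIdeal A) A] [Algebra 𝒪 A]
    [IsLocalHom (algebraMap 𝒪 A)] (hres : Function.Surjective (residue A ∘ algebraMap 𝒪 A))
    {ρA : GaloisRepAdic A} (hρA : 𝒟 ρA) {M : MatRep A} (hM : Φ.IsNormal M)
    (he : ρA.IsEquiv M.rep) (n : ℕ) [IsLocalRing (A ⧸ maximalIdeal A ^ (n + 1))]
    (hq : IsLocalHom ((Ideal.Quotient.mkₐ 𝒪 (maximalIdeal A ^ (n + 1))) :
      A →+* A ⧸ maximalIdeal A ^ (n + 1))) :
    IsDef Φ 𝒟 (M.map _ hq) := by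
  have hT := isArtinianTestAlgebra_quotient_pow hres n
  refine ⟨hM.map _ hq, h𝒟.of_isEquiv hT ?_
    ((h𝒟.iff_forall_surjective inferInstance hres ρA).mp hρA hT
      (Ideal.Quotient.mkₐ 𝒪 _) hq Ideal.Quotient.mk_surjective)⟩
  exact ⟨(he.some.baseChangeAlong _ hq).trans (M.rep_baseChangeAlong_isEquiv _ hq).some⟩

omit [IsNoetherianRing 𝒪] in
/-- The map from the universal ring to a truncation of a deformation in normal form. -/
theorem exists_algHom_quotient_pow (h𝒟 : IsDeformationCondition 𝒪 𝒟)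
    (hF : Separates Φ 𝒟 F)
    [IsLocalRing (UnivRing Φ 𝒟 F)] {M : MatRep (UnivRing Φ 𝒟 F)}
    (hcoord : ∀ t : F, coord Φ M t = Ideal.Quotient.mk _ (MvPowerSeries.X t))
    (hlev : ∀ (n : ℕ) {B : Type} [CommRing B] [IsLocalRing B] [Algebra 𝒪 B],
        IsArtinianTestAlgebra 𝒪 B → ∀ (q : UnivRing Φ 𝒟 F →ₐ[𝒪] B)
          (hq : IsLocalHom (q : UnivRing Φ 𝒟 F →+* B)), maximalIdeal B ^ (n + 1) = ⊥ →
          IsDef Φ 𝒟 (M.map (q : UnivRing Φ 𝒟 F →+* B) hq))
    {A : Type} [CommRing A] [IsLocalRing A] [IsNoetherianRing A]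
    [IsAdicComplete (maximalIdeal A) A] [Algebra 𝒪 A] [IsLocalHom (algebraMap 𝒪 A)]
    (hres : Function.Surjective (residue A ∘ algebraMap 𝒪 A)) {ρA : GaloisRepAdic A} (hρA : 𝒟 ρA)
    {MA : MatRep A} (hMA : Φ.IsNormal MA) (he : ρA.IsEquiv MA.rep) (n : ℕ) :
    ∃ g : UnivRing Φ 𝒟 F →ₐ[𝒪] A ⧸ maximalIdeal A ^ (n + 1),
      (∀ t : F, g (Ideal.Quotient.mk _ (MvPowerSeries.X t)) =
        Ideal.Quotient.mk _ (coord Φ MA t)) ∧
      ∀ σ i j, g (M.toHom σ i j) = Ideal.Quotient.mk _ (MA.toHom σ i j) := by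
  have : IsLocalRing (A ⧸ maximalIdeal A ^ (n + 1)) :=
    have := Ideal.Quotient.nontrivial_iff.mpr (ne_top_of_le_ne_top
      (maximalIdeal.isMaximal A).ne_top (Ideal.pow_le_self n.succ_ne_zero))
    .of_surjective' (Ideal.Quotient.mk (maximalIdeal A ^ (n + 1))) Ideal.Quotient.mk_surjective
  have hT := isArtinianTestAlgebra_quotient_pow (𝒪 := 𝒪) hres n
  have hq : IsLocalHom ((Ideal.Quotient.mkₐ 𝒪 (maximalIdeal A ^ (n + 1))) :
      A →+* A ⧸ maximalIdeal A ^ (n + 1)) :=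
    .of_surjective _ Ideal.Quotient.mk_surjective
  have hdef := isDef_map_quotient_pow h𝒟 hres hρA hMA he n hq
  have hpow : maximalIdeal (A ⧸ maximalIdeal A ^ (n + 1)) ^ (n + 1) = ⊥ := by
    rw [maximalIdeal_quotient, ← Ideal.map_pow, Ideal.map_quotient_self]
  obtain ⟨f, hf⟩ := exists_algHom_mvPowerSeries (𝒪 := 𝒪) (σ := F) _ (n + 1) hpow
    (fun t : F => coord Φ (MA.map _ hq) t) (fun t => coord_mem hdef.normal _)
  have hfm : ∀ a ∈ maximalIdeal (MvPowerSeries F 𝒪),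
      f a ∈ maximalIdeal (A ⧸ maximalIdeal A ^ (n + 1)) := by
    have : maximalIdeal (MvPowerSeries F 𝒪) ≤
        (maximalIdeal (A ⧸ maximalIdeal A ^ (n + 1))).comap f := by
      rw [maximalIdeal_mvPowerSeries_eq]
      refine sup_le (Ideal.map_le_iff_le_comap.mpr fun a ha => ?_) (Ideal.span_le.mpr ?_)
      · rw [Ideal.mem_comap, Ideal.mem_comap,
          show MvPowerSeries.C a = algebraMap 𝒪 (MvPowerSeries F 𝒪) a by
            simp [MvPowerSeries.algebraMap_apply], f.commutes]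
        exact fun h => ha (hT.isLocalHom.map_nonunit a h)
      · rintro _ ⟨t, rfl⟩
        rw [SetLike.mem_coe, Ideal.mem_comap, hf]
        exact coord_mem hdef.normal _
    exact fun a ha => this ha
  have hpowker : maximalIdeal (MvPowerSeries F 𝒪) ^ (n + 1) ≤ RingHom.ker f := by
    intro a ha
    rw [RingHom.mem_ker, ← Ideal.mem_bot, ← hpow]
    exact Ideal.le_comap_pow f (n + 1)
      (Ideal.pow_right_mono (show _ ≤ Ideal.comap f _ from hfm) (n + 1) ha)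
  have hle : relIdeal Φ 𝒟 F ≤ RingHom.ker f :=
    (iInf_le _ n).trans (sInf_le ⟨good_ker h𝒟 hF hT hdef f hf, hpowker⟩)
  let g : UnivRing Φ 𝒟 F →ₐ[𝒪] A ⧸ maximalIdeal A ^ (n + 1) :=
    Ideal.Quotient.liftₐ _ f fun a ha => hle ha
  have hgX : ∀ t : F, g (Ideal.Quotient.mk _ (MvPowerSeries.X t)) =
      Ideal.Quotient.mk _ (coord Φ MA t) := fun t => by
    show f (MvPowerSeries.X t) = _
    rw [hf, coord_map]
    rfl
  refine ⟨g, hgX, fun σ i j => ?_⟩
  have hg : IsLocalHom (g : UnivRing Φ 𝒟 F →+* A ⧸ maximalIdeal A ^ (n + 1)) := by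
    refine ((local_hom_TFAE _).out 0 2).mpr ?_
    rw [maximalIdeal_quotient, Ideal.map_map]
    exact Ideal.map_le_iff_le_comap.mpr fun a ha => hfm a ha
  have heq : M.map _ hg = MA.map _ hq := by
    refine IsDef.ext h𝒟 hF hT (hlev n hT g hg hpow) hdef fun t ht => ?_
    rw [coord_map, coord_map, hcoord ⟨t, ht⟩]
    exact hgX ⟨t, ht⟩
  exact congrArg (fun N : MatRep _ => N.toHom σ i j) heq

omit [IsNoetherianRing 𝒪] in
/-- The universal property. -/
theorem existsUnique_algHom (h𝒟 : IsDeformationCondition 𝒪 𝒟)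
    (hF : Separates Φ 𝒟 F)
    [IsLocalRing (UnivRing Φ 𝒟 F)] {M : MatRep (UnivRing Φ 𝒟 F)} (hM : Φ.IsNormal M)
    (hcoord : ∀ t : F, coord Φ M t = Ideal.Quotient.mk _ (MvPowerSeries.X t))
    (hlev : ∀ (n : ℕ) {B : Type} [CommRing B] [IsLocalRing B] [Algebra 𝒪 B],
        IsArtinianTestAlgebra 𝒪 B → ∀ (q : UnivRing Φ 𝒟 F →ₐ[𝒪] B)
          (hq : IsLocalHom (q : UnivRing Φ 𝒟 F →+* B)), maximalIdeal B ^ (n + 1) = ⊥ →
          IsDef Φ 𝒟 (M.map (q : UnivRing Φ 𝒟 F →+* B) hq))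
    (A : Type) [CommRing A] [IsLocalRing A] [IsNoetherianRing A]
    [IsAdicComplete (maximalIdeal A) A] [Algebra 𝒪 A] [IsLocalHom (algebraMap 𝒪 A)]
    (hres : Function.Surjective (residue A ∘ algebraMap 𝒪 A)) (ρA : GaloisRepAdic A) (hρA : 𝒟 ρA)
    (hequiv : ρA.residual.IsEquiv (ρbar.baseChangeAlong (ResidueField.map (algebraMap 𝒪 A)))) :
    ∃! φ : UnivRing Φ 𝒟 F →ₐ[𝒪] A, ∃ hφ : IsLocalHom (φ : UnivRing Φ 𝒟 F →+* A),
      (M.rep.baseChangeAlong (φ : UnivRing Φ 𝒟 F →+* A) hφ).IsEquiv ρA := by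
  obtain ⟨MA, hMA, ⟨eA⟩⟩ := Frame.exists_isNormal (Φ := Φ) ρA hequiv
  have hkey := exists_algHom_quotient_pow h𝒟 hF hcoord hlev hres hρA hMA ⟨eA⟩
  choose g hgX hgM using hkey
  -- the limit
  let G : (n : ℕ) → UnivRing Φ 𝒟 F →ₐ[𝒪] A ⧸ maximalIdeal A ^ n := fun n =>
    (Ideal.Quotient.factorₐ 𝒪 (Ideal.pow_le_pow_right n.le_succ)).comp (g n)
  have hGX : ∀ n (t : F), G n (Ideal.Quotient.mk _ (MvPowerSeries.X t)) =
      Ideal.Quotient.mk _ (coord Φ MA t) := fun n t => by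
    show Ideal.Quotient.factor (Ideal.pow_le_pow_right n.le_succ) (g n _) = _
    rw [hgX]
    rfl
  have hext : ∀ n (u v : UnivRing Φ 𝒟 F →ₐ[𝒪] A ⧸ maximalIdeal A ^ n),
      (∀ t : F, u (Ideal.Quotient.mk _ (MvPowerSeries.X t)) =
        Ideal.Quotient.mk _ (coord Φ MA t)) →
      (∀ t : F, v (Ideal.Quotient.mk _ (MvPowerSeries.X t)) =
        Ideal.Quotient.mk _ (coord Φ MA t)) → u = v := by
    intro n u v hu hv
    refine AlgHom.ext fun x => ?_
    obtain ⟨p, rfl⟩ := Ideal.Quotient.mk_surjective x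
    have h := algHom_mvPowerSeries_ext ((maximalIdeal A).map (Ideal.Quotient.mk (maximalIdeal A ^ n)))
      n (by rw [← Ideal.map_pow, Ideal.map_quotient_self])
      (u.comp (Ideal.Quotient.mkₐ 𝒪 _)) (v.comp (Ideal.Quotient.mkₐ 𝒪 _))
      (fun t => (hu t).symm ▸ Ideal.mem_map_of_mem _ (coord_mem hMA _))
      (fun t => (hu t).trans (hv t).symm)
    exact DFunLike.congr_fun h p
  let φ : UnivRing Φ 𝒟 F →ₐ[𝒪] A := IsAdicComplete.liftAlgHom (maximalIdeal A) G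
    fun {m n} hmn => hext m _ _ (fun t => by
      show Ideal.Quotient.factor (Ideal.pow_le_pow_right hmn) (G n _) = _
      rw [hGX]
      rfl) (hGX m)
  have hφG : ∀ n x, Ideal.Quotient.mk (maximalIdeal A ^ n) (φ x) = G n x := fun n x =>
    IsAdicComplete.mk_liftAlgHom _ _ _ n x
  have hφX : ∀ t : F, φ (Ideal.Quotient.mk _ (MvPowerSeries.X t)) = coord Φ MA t := fun t =>
    IsHausdorff.eq_iff_smodEq (I := maximalIdeal A).mpr fun n => by
      rw [SModEq.sub_mem, smul_eq_mul, Ideal.mul_top, ← Ideal.Quotient.eq, hφG, hGX]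
  have hφM : ∀ σ i j, φ (M.toHom σ i j) = MA.toHom σ i j := fun σ i j =>
    IsHausdorff.eq_iff_smodEq (I := maximalIdeal A).mpr fun n => by
      rw [SModEq.sub_mem, smul_eq_mul, Ideal.mul_top, ← Ideal.Quotient.eq, hφG]
      show Ideal.Quotient.factor (Ideal.pow_le_pow_right n.le_succ) (g n _) = _
      rw [hgM]
      rfl
  have hφloc : IsLocalHom (φ : UnivRing Φ 𝒟 F →+* A) := by
    refine ((local_hom_TFAE _).out 0 2).mpr ?_
    rw [maximalIdeal_quotient, Ideal.map_map, maximalIdeal_mvPowerSeries_eq, Ideal.map_sup,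
      Ideal.map_map, Ideal.map_span, sup_le_iff, Ideal.map_le_iff_le_comap, Ideal.span_le]
    refine ⟨fun a ha => ?_, ?_⟩
    · rw [Ideal.mem_comap]
      show φ (Ideal.Quotient.mk _ (MvPowerSeries.C a)) ∈ _
      rw [show MvPowerSeries.C a = algebraMap 𝒪 (MvPowerSeries F 𝒪) a by
        simp [MvPowerSeries.algebraMap_apply], Ideal.Quotient.mk_algebraMap, φ.commutes]
      exact map_nonunit _ a ha
    · rintro _ ⟨_, ⟨t, rfl⟩, rfl⟩
      show φ (Ideal.Quotient.mk _ (MvPowerSeries.X t)) ∈ _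
      rw [hφX]
      exact coord_mem hMA _
  have hmapφ : M.map _ hφloc = MA := MatRep.ext (MonoidHom.ext fun σ => Matrix.ext fun i j => hφM σ i j)
  refine ⟨φ, ⟨hφloc, ⟨(M.rep_baseChangeAlong_isEquiv _ hφloc).some.trans ?_⟩⟩, ?_⟩
  · rw [hmapφ]
    exact eA.symm
  · rintro ψ ⟨hψ, ⟨eψ⟩⟩
    have hMψ : M.map _ hψ = MA := (hM.map ψ hψ).eq_of_isEquiv hMA
      ⟨((M.rep_baseChangeAlong_isEquiv _ hψ).some.symm.trans eψ).trans eA⟩
    have hψX : ∀ t : F, ψ (Ideal.Quotient.mk _ (MvPowerSeries.X t)) = coord Φ MA t := fun t => by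
      rw [← hMψ, coord_map, hcoord]
    refine IsAdicComplete.algHom_ext (maximalIdeal A) fun n => hext n _ _ ?_ ?_
    · exact fun t => by rw [AlgHom.comp_apply, hψX]; rfl
    · exact fun t => by rw [AlgHom.comp_apply, hφX]; rfl

end Fermat.Agent.Deformation
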