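import Fermat.Prelude.Def_GaloisRep_Adic
import Mathlib.LinearAlgebra.Matrix.ToLin
import Mathlib.LinearAlgebra.Matrix.NonsingularInverse
import Mathlib.RingTheory.TensorProduct.Free

/-!
# Two-dimensional adic Galois representations as matrix-valued homomorphisms
-/

set_option autoImplicit false

namespace Fermat.Agent.Deformation

open IsLocalRing Matrix
open scoped TensorProduct

/-- The absolute Galois group of `ℚ`. -/
abbrev GQ : Type := AlgebraicClosure ℚ ≃ₐ[ℚ] AlgebraicClosure ℚ

theorem mem_smul_top_pi {A : Type} [CommRing A] (I : Ideal A) (v : Fin 2 → A) :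
    v ∈ I • (⊤ : Submodule A (Fin 2 → A)) ↔ ∀ i, v i ∈ I := by
  classical
  refine ⟨fun hv i => ?_, fun hv => ?_⟩
  · induction hv using Submodule.smul_induction_on' with
    | smul r hr x _ => exact Ideal.mul_mem_right _ _ hr
    | add x _ y _ hx hy => exact Submodule.add_mem _ hx hy
  · rw [pi_eq_sum_univ' v]
    exact Submodule.sum_mem _ fun i _ => Submodule.smul_mem_smul (hv i) Submodule.mem_top

/-- A continuous homomorphism of `GQ` to `2 × 2` matrices over a local ring. -/
@[ext]
structure MatRep (A : Type) [CommRing A] [IsLocalRing A] where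
  toHom : GQ →* Matrix (Fin 2) (Fin 2) A
  continuous' : ∀ n : ℕ, ∃ L : IntermediateField ℚ (AlgebraicClosure ℚ), FiniteDimensional ℚ L ∧
    ∀ σ : GQ, (∀ x ∈ L, σ x = x) →
      ∀ i j, toHom σ i j - (1 : Matrix (Fin 2) (Fin 2) A) i j ∈ maximalIdeal A ^ n

namespace MatRep

variable {A B C : Type} [CommRing A] [IsLocalRing A] [CommRing B] [IsLocalRing B]
  [CommRing C] [IsLocalRing C]

theorem pow_maximalIdeal_map_mem (f : A →+* B) (hf : IsLocalHom f) (n : ℕ) {a : A}
    (ha : a ∈ maximalIdeal A ^ n) : f a ∈ maximalIdeal B ^ n := by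
  have h : maximalIdeal A ≤ (maximalIdeal B).comap f := fun x hx =>
    haveI := hf; map_nonunit f x hx
  exact Ideal.le_comap_pow f n (Ideal.pow_right_mono h n ha)

/-- Push a matrix representation forward along a local homomorphism. -/
noncomputable def map (M : MatRep A) (f : A →+* B) (hf : IsLocalHom f) : MatRep B where
  toHom := (f.mapMatrix (m := Fin 2)).toMonoidHom.comp M.toHom
  continuous' n := by
    obtain ⟨L, hL, h⟩ := M.continuous' n
    refine ⟨L, hL, fun σ hσ i j => ?_⟩
    have := pow_maximalIdeal_map_mem f hf n (h σ hσ i j)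
    rw [map_sub] at this
    convert this using 2
    · rfl
    · rw [Matrix.one_apply, Matrix.one_apply]
      split_ifs <;> simp

@[simp]
theorem map_toHom_apply (M : MatRep A) (f : A →+* B) (hf : IsLocalHom f) (σ : GQ) (i j : Fin 2) :
    (M.map f hf).toHom σ i j = f (M.toHom σ i j) := rfl

theorem map_map (M : MatRep A) (f : A →+* B) (hf : IsLocalHom f) (g : B →+* C) (hg : IsLocalHom g)
    (hgf : IsLocalHom (g.comp f)) : (M.map f hf).map g hg = M.map (g.comp f) hgf := rfl

/-- The adic Galois representation on `A²` of a matrix representation. -/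
noncomputable def rep (M : MatRep A) : GaloisRepAdic A where
  V := Fin 2 → A
  finrank_eq := by simp
  ρ := (Matrix.toLinAlgEquiv' (R := A) (n := Fin 2)).toAlgHom.toMonoidHom.comp M.toHom
  isAdicContinuous n := by
    obtain ⟨L, hL, h⟩ := M.continuous' n
    refine ⟨L, hL, fun σ hσ v => (mem_smul_top_pi _ _).mpr fun i => ?_⟩
    have h1 : ((M.toHom σ - 1) *ᵥ v) i ∈ maximalIdeal A ^ n := by
      simp only [Matrix.mulVec, dotProduct, Matrix.sub_apply]
      exact Submodule.sum_mem _ fun j _ => Ideal.mul_mem_right _ _ (h σ hσ i j)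
    rwa [Matrix.sub_mulVec, Matrix.one_mulVec] at h1

/-- The base change of `A²` is `B²`. -/
theorem rep_baseChangeAlong_isEquiv (M : MatRep A) (f : A →+* B) (hf : IsLocalHom f) :
    (M.rep.baseChangeAlong f hf).IsEquiv (M.map f hf).rep := by
  let _ : Algebra A B := f.toAlgebra
  refine ⟨⟨TensorProduct.piScalarRight A B B (Fin 2), fun σ => ?_⟩⟩
  show ∀ x : B ⊗[A] (Fin 2 → A), TensorProduct.piScalarRight A B B (Fin 2)
      ((Matrix.toLinAlgEquiv' (M.toHom σ)).baseChange B x) =
    (M.map f hf).toHom σ *ᵥ TensorProduct.piScalarRight A B B (Fin 2) x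
  intro x
  induction x using TensorProduct.induction_on with
  | zero => simp only [map_zero, Matrix.mulVec_zero]
  | tmul b v =>
    rw [LinearMap.baseChange_tmul, Matrix.toLinAlgEquiv'_apply]
    ext i
    have h1 : ∀ (w : Fin 2 → A) (l : Fin 2),
        TensorProduct.piScalarRight A B B (Fin 2) (b ⊗ₜ[A] w) l = f (w l) * b := fun w l => by
      simp [Algebra.smul_def, RingHom.algebraMap_toAlgebra]
    rw [h1]
    simp only [Matrix.mulVec, dotProduct, map_sum, map_mul, Finset.sum_mul]
    refine Finset.sum_congr rfl fun j _ => ?_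
    rw [map_toHom_apply, h1, mul_assoc]
  | add x y hx hy => simp only [map_add, Matrix.mulVec_add, hx, hy]

/-- Every adic representation comes from a matrix representation. -/
theorem exists_rep_isEquiv (ρ : GaloisRepAdic A) : ∃ M : MatRep A, ρ.IsEquiv M.rep := by
  classical
  let b := Module.finBasisOfFinrankEq A ρ.V ρ.finrank_eq
  let N : GQ →* Matrix (Fin 2) (Fin 2) A :=
    (LinearMap.toMatrixAlgEquiv b).toAlgHom.toMonoidHom.comp ρ.ρ
  refine ⟨⟨N, fun n => ?_⟩, ⟨⟨b.equivFun, fun σ x => ?_⟩⟩⟩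
  · obtain ⟨L, hL, h⟩ := ρ.isAdicContinuous n
    refine ⟨L, hL, fun σ hσ i j => ?_⟩
    have h1 : ∀ x ∈ (maximalIdeal A ^ n) • (⊤ : Submodule A ρ.V), b.repr x i ∈ maximalIdeal A ^ n := by
      intro x hx
      induction hx using Submodule.smul_induction_on' with
      | smul r hr x _ => simpa using Ideal.mul_mem_right _ _ hr
      | add x _ y _ hx hy => simpa using Submodule.add_mem _ hx hy
    have h2 := h1 _ (h σ hσ (b j))
    rw [map_sub, Finsupp.sub_apply] at h2
    convert h2 using 2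
    · simp [N, LinearMap.toMatrixAlgEquiv_apply]
    · simp [Matrix.one_apply, Finsupp.single_apply, eq_comm]
  · exact (LinearMap.toMatrix_mulVec_repr b b (ρ.ρ σ) x).symm

/-- Equivalence of matrix representations is conjugacy. -/
theorem isEquiv_iff {M M' : MatRep A} :
    M.rep.IsEquiv M'.rep ↔ ∃ g : Matrix (Fin 2) (Fin 2) A, IsUnit g.det ∧
      ∀ σ, M'.toHom σ * g = g * M.toHom σ := by
  classical
  constructor
  · rintro ⟨⟨e, he⟩⟩
    let e' : (Fin 2 → A) ≃ₗ[A] (Fin 2 → A) := e
    refine ⟨LinearMap.toMatrix' e'.toLinearMap, ?_, fun σ => ?_⟩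
    · refine Matrix.isUnit_det_of_left_inverse (B := LinearMap.toMatrix' e'.symm.toLinearMap) ?_
      rw [← LinearMap.toMatrix'_comp]
      simp
    · refine Matrix.toLinAlgEquiv'.injective (LinearMap.ext fun v => ?_)
      rw [map_mul, map_mul, Module.End.mul_apply, Module.End.mul_apply]
      simp only [Matrix.toLinAlgEquiv'_apply, LinearMap.toMatrix'_mulVec, LinearEquiv.coe_coe]
      exact (he σ v).symm
  · rintro ⟨g, hg, h⟩
    have hg' : IsUnit g := (Matrix.isUnit_iff_isUnit_det g).mpr hg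
    refine ⟨⟨Matrix.toLinearEquiv (Pi.basisFun A (Fin 2)) g hg, fun σ => ?_⟩⟩
    have hh : ∀ w : Fin 2 → A,
        (Matrix.toLinearEquiv (Pi.basisFun A (Fin 2)) g hg) w = g *ᵥ w := fun w => by
      simp [Matrix.toLin_eq_toLin']
    show ∀ v : Fin 2 → A, (Matrix.toLinearEquiv (Pi.basisFun A (Fin 2)) g hg) (M.toHom σ *ᵥ v) =
      M'.toHom σ *ᵥ (Matrix.toLinearEquiv (Pi.basisFun A (Fin 2)) g hg) v
    intro v
    rw [hh, hh, Matrix.mulVec_mulVec, Matrix.mulVec_mulVec, h]

/-- Conjugate of a matrix representation. -/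
theorem exists_conj (M : MatRep A) (g : Matrix (Fin 2) (Fin 2) A) (hg : IsUnit g.det) :
    ∃ M' : MatRep A, M.rep.IsEquiv M'.rep ∧ ∀ σ, M'.toHom σ = g⁻¹ * M.toHom σ * g := by
  let N : GQ →* Matrix (Fin 2) (Fin 2) A :=
    { toFun := fun σ => g⁻¹ * M.toHom σ * g
      map_one' := by rw [map_one, mul_one, Matrix.nonsing_inv_mul _ hg]
      map_mul' := fun σ τ => by
        rw [map_mul]
        calc g⁻¹ * (M.toHom σ * M.toHom τ) * g
            = g⁻¹ * M.toHom σ * (g * g⁻¹) * (M.toHom τ * g) := by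
              rw [Matrix.mul_nonsing_inv _ hg]; simp [mul_assoc]
          _ = g⁻¹ * M.toHom σ * g * (g⁻¹ * M.toHom τ * g) := by simp [mul_assoc] }
  refine ⟨⟨N, fun n => ?_⟩, isEquiv_iff.mpr ⟨g⁻¹, ?_, fun σ => ?_⟩, fun σ => rfl⟩
  · obtain ⟨L, hL, h⟩ := M.continuous' n
    refine ⟨L, hL, fun σ hσ i j => ?_⟩
    have h1 : (g⁻¹ * (M.toHom σ - 1) * g) i j ∈ maximalIdeal A ^ n := by
      simp only [Matrix.mul_apply, Matrix.sub_apply]
      exact Submodule.sum_mem _ fun k _ => Ideal.mul_mem_right _ _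
        (Submodule.sum_mem _ fun l _ => Ideal.mul_mem_left _ _ (h σ hσ l k))
    rwa [mul_sub, sub_mul, mul_one, Matrix.nonsing_inv_mul _ hg] at h1
  · exact Matrix.isUnit_nonsing_inv_det _ hg
  · show g⁻¹ * M.toHom σ * g * g⁻¹ = g⁻¹ * M.toHom σ
    rw [mul_assoc, Matrix.mul_nonsing_inv _ hg, mul_one]

end MatRep

section Residual

variable {k : Type} [Field k]

/-- Conjugacy of the matrices of equivalent residual representations. -/
theorem residual_isEquiv_iff {r r' : ResidualGaloisRep k} (b : Module.Basis (Fin 2) k r.V)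
    (b' : Module.Basis (Fin 2) k r'.V) :
    r.IsEquiv r' ↔ ∃ g : Matrix (Fin 2) (Fin 2) k, IsUnit g.det ∧
      ∀ σ, LinearMap.toMatrix b' b' (r'.ρ σ) * g = g * LinearMap.toMatrix b b (r.ρ σ) := by
  constructor
  · rintro ⟨e, he⟩
    refine ⟨LinearMap.toMatrix b b' e.toLinearMap, ?_, fun σ => ?_⟩
    · refine Matrix.isUnit_det_of_left_inverse (B := LinearMap.toMatrix b' b e.symm.toLinearMap) ?_
      rw [← LinearMap.toMatrix_comp]
      simp
    · rw [← LinearMap.toMatrix_comp, ← LinearMap.toMatrix_comp]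
      congr 1
      exact LinearMap.ext fun x => (he σ x).symm
  · rintro ⟨g, hg, h⟩
    have hcomp : ∀ σ, (r'.ρ σ).comp (Matrix.toLin b b' g) = (Matrix.toLin b b' g).comp (r.ρ σ) := by
      intro σ
      refine (LinearMap.toMatrix b b').injective ?_
      rw [LinearMap.toMatrix_comp b b' b', LinearMap.toMatrix_comp b b b',
        LinearMap.toMatrix_toLin]
      exact h σ
    let e : r.V ≃ₗ[k] r'.V :=
      LinearEquiv.ofLinearMap (Matrix.toLin b b' g) (Matrix.toLin b' b g⁻¹)
        (by rw [← Matrix.toLin_mul, Matrix.mul_nonsing_inv _ hg, Matrix.toLin_one])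
        (by rw [← Matrix.toLin_mul, Matrix.nonsing_inv_mul _ hg, Matrix.toLin_one])
    exact ⟨⟨e, fun σ x => (LinearMap.congr_fun (hcomp σ) x).symm⟩⟩

end Residual

end Fermat.Agent.Deformation
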