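import Fermat.Prelude.Def_GaloisRep_DeformationCondition
import Fermat.Agent.Deformation.MatrixRep

/-!
# Artinian test algebras

Elementary facts about artinian local `𝒪`-algebras with the same (finite) residue field as `𝒪`.
-/

set_option autoImplicit false

namespace Fermat.Agent.Deformation

open IsLocalRing GaloisRep

variable {𝒪 : Type} [CommRing 𝒪] [IsLocalRing 𝒪]
  {A B : Type} [CommRing A] [IsLocalRing A] [Algebra 𝒪 A] [CommRing B] [IsLocalRing B] [Algebra 𝒪 B]

omit [Algebra 𝒪 A] in
theorem exists_pow_maximalIdeal_eq_bot [IsArtinianRing A] : ∃ n, maximalIdeal A ^ n = ⊥ := by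
  obtain ⟨n, hn⟩ := (isArtinianRing_iff_isNilpotent_maximalIdeal A).mp inferInstance
  exact ⟨n, hn⟩

/-- Every homomorphism out of an artinian local ring to a local ring is local. -/
theorem isLocalHom_of_isArtinian {A B : Type*} [CommRing A] [IsLocalRing A] [IsArtinianRing A]
    [CommRing B] [Nontrivial B] (f : A →+* B) : IsLocalHom f := by
  refine ⟨fun a ha => ?_⟩
  by_contra h
  obtain ⟨n, hn⟩ := (isArtinianRing_iff_isNilpotent_maximalIdeal A).mp inferInstance
  have h1 : a ^ n ∈ maximalIdeal A ^ n := Ideal.pow_mem_pow h n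
  rw [hn, Ideal.zero_eq_bot, Ideal.mem_bot] at h1
  exact ((IsNilpotent.mk a n h1).map f).not_isUnit ha

omit [IsLocalRing 𝒪] in
theorem exists_sub_mem_maximalIdeal (hA : IsArtinianTestAlgebra 𝒪 A) (x : A) :
    ∃ a : 𝒪, x - algebraMap 𝒪 A a ∈ maximalIdeal A := by
  obtain ⟨a, ha⟩ := hA.residue_surjective (residue A x)
  refine ⟨a, ?_⟩
  rw [← residue_eq_zero_iff, map_sub, sub_eq_zero]
  exact ha.symm

omit [IsLocalRing 𝒪] in
/-- A finite local algebra with the residue field of `𝒪` is a test algebra. -/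
theorem isArtinianTestAlgebra_of_finite [Finite A] (h : IsLocalHom (algebraMap 𝒪 A))
    (h' : ∀ x : A, ∃ a : 𝒪, x - algebraMap 𝒪 A a ∈ maximalIdeal A) :
    IsArtinianTestAlgebra 𝒪 A where
  isLocalHom := h
  residue_surjective y := by
    obtain ⟨x, rfl⟩ := residue_surjective y
    obtain ⟨a, ha⟩ := h' x
    exact ⟨a, (Ideal.Quotient.eq.mpr ha).symm⟩
  isArtinian := inferInstance

theorem finite_of_isArtinianTestAlgebra [Finite (ResidueField 𝒪)]
    (hA : IsArtinianTestAlgebra 𝒪 A) : Finite A := by
  have := hA.isArtinian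
  have := hA.isLocalHom
  have : Finite (A ⧸ maximalIdeal A) :=
    Finite.of_surjective (ResidueField.map (algebraMap 𝒪 A)) fun y => by
      obtain ⟨a, ha⟩ := hA.residue_surjective y
      exact ⟨residue 𝒪 a, (ResidueField.map_residue _ a).trans ha⟩
  obtain ⟨n, hn⟩ := exists_pow_maximalIdeal_eq_bot (A := A)
  have := Ideal.finite_quotient_pow (IsNoetherian.noetherian (maximalIdeal A)) n
  rw [hn] at this
  exact Finite.of_equiv _ (RingEquiv.quotientBot A).toEquiv

theorem isArtinianTestAlgebra_residueField : IsArtinianTestAlgebra 𝒪 (ResidueField 𝒪) where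
  isLocalHom := by
    rw [ResidueField.algebraMap_eq]
    infer_instance
  residue_surjective := by
    rw [ResidueField.algebraMap_eq]
    exact (residue_surjective (R := ResidueField 𝒪)).comp residue_surjective
  isArtinian := inferInstance

/-- The augmentation of a test algebra. -/
theorem exists_augmentation (hA : IsArtinianTestAlgebra 𝒪 A) :
    ∃ π : A →ₐ[𝒪] ResidueField 𝒪, ∀ (x : A) (a : 𝒪), x - algebraMap 𝒪 A a ∈ maximalIdeal A →
      π x = residue 𝒪 a := by
  have := hA.isLocalHom
  have hbij : Function.Bijective (ResidueField.map (algebraMap 𝒪 A)) :=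
    ⟨(ResidueField.map (algebraMap 𝒪 A)).injective, fun y => by
      obtain ⟨a, ha⟩ := hA.residue_surjective y
      exact ⟨residue 𝒪 a, (ResidueField.map_residue _ a).trans ha⟩⟩
  let e := RingEquiv.ofBijective _ hbij
  refine ⟨{ (e.symm.toRingHom.comp (residue A)) with commutes' := fun a => ?_ }, fun x a h => ?_⟩
  · exact e.symm_apply_eq.mpr (ResidueField.map_residue _ a).symm
  · refine e.symm_apply_eq.mpr ?_
    exact (Ideal.Quotient.eq.mpr h).trans (ResidueField.map_residue _ a).symm

omit [IsLocalRing 𝒪] in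
/-- A subalgebra of a finite test algebra is a test algebra. -/
theorem isLocalRing_subalgebra [Finite A] (S : Subalgebra 𝒪 A) : IsLocalRing S := by
  refine IsLocalRing.of_isUnit_or_isUnit_one_sub_self fun b => ?_
  have key : ∀ c : S, IsUnit (c : A) → IsUnit c := fun c hc => by
    obtain ⟨d, hd⟩ := Finite.surjective_of_injective (f := fun x : S => c * x)
      (fun x y hxy => Subtype.ext (hc.mul_left_cancel (congrArg Subtype.val hxy))) 1
    exact .of_mul_eq_one d hd
  rcases IsLocalRing.isUnit_or_isUnit_one_sub_self (b : A) with h | h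
  · exact Or.inl (key b h)
  · exact Or.inr (key _ (by simpa using h))

omit [IsLocalRing 𝒪] in
theorem isArtinianTestAlgebra_subalgebra [Finite A] (hA : IsArtinianTestAlgebra 𝒪 A)
    (S : Subalgebra 𝒪 A) [IsLocalRing S] : IsArtinianTestAlgebra 𝒪 S := by
  refine isArtinianTestAlgebra_of_finite ⟨fun a ha => ?_⟩ fun x => ?_
  · exact hA.isLocalHom.map_nonunit a (ha.map S.val)
  · obtain ⟨a, ha⟩ := exists_sub_mem_maximalIdeal hA (x : A)
    exact ⟨a, fun h => ha (h.map S.val)⟩

/-- A continuous representation over an artinian ring is trivial on an open subgroup. -/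
theorem MatRep.exists_eq_one [IsArtinianRing A] (M : MatRep A) :
    ∃ L : IntermediateField ℚ (AlgebraicClosure ℚ), FiniteDimensional ℚ L ∧
      ∀ σ : GQ, (∀ x ∈ L, σ x = x) → M.toHom σ = 1 := by
  obtain ⟨n, hn⟩ := exists_pow_maximalIdeal_eq_bot (A := A)
  obtain ⟨L, hL, h⟩ := M.continuous' n
  refine ⟨L, hL, fun σ hσ => Matrix.ext fun i j => sub_eq_zero.mp ?_⟩
  simpa [hn] using h σ hσ i j

/-- A homomorphism trivial on an open subgroup is a matrix representation. -/
noncomputable def MatRep.ofTrivialOn (ρ : GQ →* Matrix (Fin 2) (Fin 2) A)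
    (L : IntermediateField ℚ (AlgebraicClosure ℚ)) (hL : FiniteDimensional ℚ L)
    (h : ∀ σ : GQ, (∀ x ∈ L, σ x = x) → ρ σ = 1) : MatRep A where
  toHom := ρ
  continuous' _ := ⟨L, hL, fun σ hσ i j => by rw [h σ hσ, sub_self]; exact Submodule.zero_mem _⟩

end Fermat.Agent.Deformation
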