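import Mathlib.FieldTheory.IsAlgClosed.AlgebraicClosure
import Mathlib.LinearAlgebra.Dual.Lemmas
import Mathlib.LinearAlgebra.Matrix.ToLin
import Mathlib.LinearAlgebra.Matrix.Charpoly.Eigs

/-!
# Burnside's theorem for two-dimensional representations
-/

set_option autoImplicit false

namespace Fermat.Agent.Deformation

open Matrix

variable {K : Type*} [Field K] {G : Type*} [Monoid G]

/-- Over an algebraically closed field the image of an irreducible two-dimensional representation
spans the full matrix algebra. -/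
theorem span_range_eq_top_of_irreducible [IsAlgClosed K] (ρ : G →* Matrix (Fin 2) (Fin 2) K)
    (hirr : ∀ W : Submodule K (Fin 2 → K), (∀ σ, ∀ x ∈ W, ρ σ *ᵥ x ∈ W) → W = ⊥ ∨ W = ⊤) :
    Submodule.span K (Set.range ρ) = ⊤ := by
  classical
  set S := Submodule.span K (Set.range ρ) with hS
  have hone : (1 : Matrix (Fin 2) (Fin 2) K) ∈ S :=
    Submodule.subset_span ⟨1, map_one ρ⟩
  have hmul : ∀ a ∈ S, ∀ σ, ρ σ * a ∈ S ∧ a * ρ σ ∈ S := by
    intro a ha σ
    induction ha using Submodule.span_induction with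
    | mem x hx =>
      obtain ⟨τ, rfl⟩ := hx
      exact ⟨Submodule.subset_span ⟨σ * τ, map_mul ρ σ τ⟩,
        Submodule.subset_span ⟨τ * σ, map_mul ρ τ σ⟩⟩
    | zero => simp
    | add x y _ _ hx hy =>
      exact ⟨mul_add (ρ σ) x y ▸ add_mem hx.1 hy.1, add_mul x y (ρ σ) ▸ add_mem hx.2 hy.2⟩
    | smul c x _ hx =>
      exact ⟨(mul_smul_comm c (ρ σ) x).symm ▸ S.smul_mem c hx.1,
        (smul_mul_assoc c x (ρ σ)).symm ▸ S.smul_mem c hx.2⟩
  -- there is a non-scalar element
  obtain ⟨x, hxS, hx⟩ : ∃ x ∈ S, ∀ c : K, x ≠ c • 1 := by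
    by_contra! h
    let w : Fin 2 → K := Pi.single 0 1
    rcases hirr (K ∙ w) (fun σ y hy => by
      obtain ⟨c, hc⟩ := h (ρ σ) (Submodule.subset_span ⟨σ, rfl⟩)
      rw [hc, Matrix.smul_mulVec, Matrix.one_mulVec]
      exact Submodule.smul_mem _ c hy) with hW | hW
    · rw [Submodule.span_singleton_eq_bot] at hW
      simpa [w] using congrFun hW 0
    · have := hW.ge (Submodule.mem_top : (Pi.single 1 1 : Fin 2 → K) ∈ _)
      obtain ⟨c, hc⟩ := Submodule.mem_span_singleton.mp this
      simpa [w] using congrFun hc 1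
  -- a rank one element
  obtain ⟨a, b, ha, hb, hab⟩ : ∃ a b : Fin 2 → K, a ≠ 0 ∧ b ≠ 0 ∧ vecMulVec a b ∈ S := by
    obtain ⟨c, hc⟩ := IsAlgClosed.exists_root x.charpoly
      (by rw [Matrix.charpoly_degree_eq_dim]; decide)
    set N := x - c • (1 : Matrix (Fin 2) (Fin 2) K) with hN
    have hNS : N ∈ S := sub_mem hxS (S.smul_mem c hone)
    have hN0 : N ≠ 0 := sub_ne_zero.mpr (hx c)
    have hdet : N.det = 0 := by
      have h2 := hc
      rw [Polynomial.IsRoot, Matrix.eval_charpoly] at h2
      have h3 : N = -(scalar (Fin 2) c - x) := by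
        rw [neg_sub, hN, Matrix.scalar_apply, Matrix.smul_one_eq_diagonal]
      rw [h3, Matrix.det_neg, h2, mul_zero]
    rw [Matrix.det_fin_two] at hdet
    obtain ⟨i, j, hij⟩ : ∃ i j, N i j ≠ 0 := by
      by_contra! h
      exact hN0 (Matrix.ext h)
    refine ⟨fun r => N r j, fun s => N i s / N i j, fun h => hij (congrFun h i),
      fun h => one_ne_zero ((div_self hij).symm.trans (congrFun h j)), ?_⟩
    convert hNS using 1
    ext r s
    rw [vecMulVec_apply, mul_div, div_eq_iff hij]
    fin_cases i <;> fin_cases j <;> fin_cases r <;> fin_cases s <;>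
      simp only [Fin.zero_eta, Fin.mk_one, Fin.isValue] <;>
      first | ring1 | linear_combination hdet | linear_combination -hdet
  -- the set of columns which occur is everything
  have hcol : ∀ u, vecMulVec u b ∈ S := by
    let W : Submodule K (Fin 2 → K) :=
      { carrier := {u | vecMulVec u b ∈ S}
        add_mem' := fun hu hv => by simpa [Matrix.add_vecMulVec] using add_mem hu hv
        zero_mem' := by simp
        smul_mem' := fun c u hu => by simpa [Matrix.smul_vecMulVec] using S.smul_mem c hu }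
    have hW : ∀ σ, ∀ u ∈ W, ρ σ *ᵥ u ∈ W := fun σ u hu => by
      show vecMulVec (ρ σ *ᵥ u) b ∈ S
      rw [← Matrix.mul_vecMulVec]
      exact (hmul _ hu σ).1
    rcases hirr W hW with h | h
    · exact absurd (h.le hab) (by simpa using ha)
    · exact fun u => h.ge (Submodule.mem_top : u ∈ ⊤)
  -- and the set of rows
  have hall : ∀ u v, vecMulVec u v ∈ S := by
    let Z : Submodule K (Fin 2 → K) :=
      { carrier := {v | ∀ u, vecMulVec u v ∈ S}
        add_mem' := fun hu hv w => by simpa [Matrix.vecMulVec_add] using add_mem (hu w) (hv w)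
        zero_mem' := fun w => by simp
        smul_mem' := fun c v hv w => by simpa [Matrix.vecMulVec_smul] using S.smul_mem c (hv w) }
    have hZ : ∀ σ, ∀ v ∈ Z, v ᵥ* ρ σ ∈ Z := fun σ v hv u => by
      rw [← Matrix.vecMulVec_mul]
      exact (hmul _ (hv u) σ).2
    suffices Z = ⊤ from fun u v => this.ge (Submodule.mem_top : v ∈ ⊤) u
    let Zperp : Submodule K (Fin 2 → K) :=
      { carrier := {w | ∀ v ∈ Z, v ⬝ᵥ w = 0}
        add_mem' := fun hu hv v hv' => by rw [dotProduct_add, hu v hv', hv v hv', add_zero]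
        zero_mem' := fun v _ => dotProduct_zero v
        smul_mem' := fun c w hw v hv => by rw [dotProduct_smul, hw v hv, smul_zero] }
    have hperp : ∀ σ, ∀ w ∈ Zperp, ρ σ *ᵥ w ∈ Zperp := fun σ w hw v hv => by
      rw [Matrix.dotProduct_mulVec]
      exact hw _ (hZ σ v hv)
    by_contra hne
    obtain ⟨f, hf0, hf⟩ := Submodule.exists_dual_map_eq_bot_of_lt_top (lt_top_iff_ne_top.mpr hne)
      inferInstance
    let w : Fin 2 → K := fun i => f (Pi.single i 1)
    have hfw : ∀ v : Fin 2 → K, v ⬝ᵥ w = f v := fun v => by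
      conv_rhs => rw [pi_eq_sum_univ' v, map_sum]
      simp [dotProduct, w, map_smul]
    rcases hirr Zperp hperp with h | h
    · refine hf0 ?_
      have hw : w ∈ Zperp := fun v hv => by
        rw [hfw]
        exact LinearMap.mem_ker.mp (LinearMap.le_ker_iff_map.mpr hf hv)
      rw [h, Submodule.mem_bot] at hw
      refine LinearMap.ext fun v => ?_
      rw [← hfw, hw, dotProduct_zero, LinearMap.zero_apply]
    · refine hb (funext fun i => ?_)
      have := h.ge (Submodule.mem_top : (Pi.single i 1 : Fin 2 → K) ∈ ⊤) b hcol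
      simpa using this
  refine eq_top_iff.mpr fun m _ => ?_
  have : m = ∑ i, vecMulVec (Pi.single i 1) (m i) := by
    ext r s
    simp [Matrix.sum_apply, vecMulVec_apply, Pi.single_apply]
  rw [this]
  exact Submodule.sum_mem _ fun i _ => hall _ _

omit [Monoid G] in
/-- If the span over an extension field is everything, so is the span over the base field. -/
theorem span_range_eq_top_of_map {L : Type*} [Field L] (φ : K →+* L)
    (ρ : G → Matrix (Fin 2) (Fin 2) K)
    (h : Submodule.span L (Set.range fun σ => (ρ σ).map φ) = ⊤) :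
    Submodule.span K (Set.range ρ) = ⊤ := by
  classical
  by_contra hne
  obtain ⟨f, hf0, hf⟩ := Submodule.exists_dual_map_eq_bot_of_lt_top (lt_top_iff_ne_top.mpr hne)
    inferInstance
  let F : Matrix (Fin 2) (Fin 2) L →ₗ[L] L :=
    ∑ i, ∑ j, φ (f (Matrix.single i j 1)) • Matrix.entryLinearMap L L i j
  have hfm : ∀ m : Matrix (Fin 2) (Fin 2) K, f m = ∑ i, ∑ j, f (Matrix.single i j 1) * m i j := by
    intro m
    conv_lhs => rw [Matrix.matrix_eq_sum_single m]
    simp only [map_sum]
    refine Finset.sum_congr rfl fun i _ => Finset.sum_congr rfl fun j _ => ?_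
    rw [show Matrix.single i j (m i j) = m i j • Matrix.single i j (1 : K) by
      rw [Matrix.smul_single]; simp]
    rw [map_smul, smul_eq_mul, mul_comm]
  have hF : ∀ σ, F ((ρ σ).map φ) = 0 := by
    intro σ
    have := LinearMap.mem_ker.mp
      (LinearMap.le_ker_iff_map.mpr hf (Submodule.subset_span ⟨σ, rfl⟩))
    rw [hfm] at this
    simpa [F] using congrArg φ this
  have hF0 : ∀ m, F m = 0 := by
    intro m
    have hm : m ∈ Submodule.span L (Set.range fun σ => (ρ σ).map φ) := h ▸ Submodule.mem_top
    induction hm using Submodule.span_induction with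
    | mem x hx => obtain ⟨σ, rfl⟩ := hx; exact hF σ
    | zero => exact map_zero F
    | add x y _ _ hx hy => rw [map_add, hx, hy, add_zero]
    | smul c x _ hx => rw [map_smul, hx, smul_zero]
  refine hf0 (LinearMap.ext fun m => ?_)
  rw [hfm, LinearMap.zero_apply]
  refine Finset.sum_eq_zero fun i _ => Finset.sum_eq_zero fun j _ => ?_
  have := hF0 (Matrix.single i j 1)
  have h2 : F (Matrix.single i j 1) = φ (f (Matrix.single i j 1)) := by
    simp only [F, LinearMap.sum_apply, LinearMap.smul_apply, Matrix.entryLinearMap_apply,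
      smul_eq_mul]
    rw [Finset.sum_eq_single i _ (by simp), Finset.sum_eq_single j _ (by simp)]
    · simp
    · intro b _ hb
      simp [Ne.symm hb]
    · intro b _ hb
      simp [Ne.symm hb]
  rw [h2, map_eq_zero] at this
  rw [this, zero_mul]

end Fermat.Agent.Deformation
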