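import Mathlib.RingTheory.AdicCompletion.Completeness
import Mathlib.RingTheory.AdicCompletion.Noetherian
import Mathlib.RingTheory.DiscreteValuationRing.Basic
import Mathlib.RingTheory.MvPowerSeries.Inverse
import Mathlib.RingTheory.LocalRing.ResidueField.Basic
import Mathlib.RingTheory.Ideal.Quotient.Index

/-!
# Power series over a complete local ring, and successive approximation

Auxiliary facts used to build universal deformation rings: the maximal ideal of
`𝒪⟦X₁, …, X_r⟧`, completeness, evaluation in rings with nilpotent maximal ideal.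
-/

set_option autoImplicit false

namespace Fermat.Agent.Deformation

open IsLocalRing

section SpanX

variable {σ R : Type*} [Finite σ] [CommRing R]

/-- A power series with no terms of degree `< n` lies in `(X) ^ n`. -/
theorem mem_span_X_pow_of_truncTotal_eq_zero (p : MvPowerSeries σ R) (n : ℕ)
    (h : MvPowerSeries.truncTotal n p = 0) :
    p ∈ (Ideal.span (Set.range MvPowerSeries.X) : Ideal (MvPowerSeries σ R)) ^ n := by
  let e := MvPowerSeries.toAdicCompletionAlgEquiv σ R
  have hX : (MvPolynomial.idealOfVars σ R).map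
      (algebraMap (MvPolynomial σ R) (MvPowerSeries σ R)) =
        Ideal.span (Set.range MvPowerSeries.X) := by
    rw [MvPolynomial.idealOfVars, Ideal.map_span, ← Set.range_comp]
    congr 2
    funext i
    simp [MvPowerSeries.algebraMap_apply', ← MvPolynomial.coe_X]
  have h1 : e p ∈ (AdicCompletion.eval (MvPolynomial.idealOfVars σ R) (MvPolynomial σ R) n).ker := by
    rw [LinearMap.mem_ker, AdicCompletion.eval_apply, MvPowerSeries.toAdicCompletionAlgEquiv_apply,
      MvPowerSeries.toAdicCompletion_apply_eq_mk_truncTotal, h]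
    simp
  rw [← AdicCompletion.pow_smul_top_eq_ker_eval (MvPolynomial.idealOfVars_fg σ R),
    Ideal.smul_top_eq_map, Submodule.restrictScalars_mem, Ideal.map_pow] at h1
  rw [← hX, ← Ideal.map_pow]
  have h2 : ((MvPolynomial.idealOfVars σ R) ^ n).map (algebraMap (MvPolynomial σ R)
      (AdicCompletion (MvPolynomial.idealOfVars σ R) (MvPolynomial σ R))) =
      (((MvPolynomial.idealOfVars σ R) ^ n).map
        (algebraMap (MvPolynomial σ R) (MvPowerSeries σ R))).map (e : _ →+* _) := by
    rw [Ideal.map_map]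
    congr 1
    exact RingHom.ext fun x => (e.commutes x).symm
  rw [← Ideal.map_pow, h2] at h1
  obtain ⟨y, hy, hye⟩ := (Ideal.mem_map_iff_of_surjective _ e.surjective).mp h1
  rwa [← e.injective hye]

theorem mem_span_X_of_constantCoeff_eq_zero (p : MvPowerSeries σ R)
    (h : MvPowerSeries.constantCoeff p = 0) :
    p ∈ (Ideal.span (Set.range MvPowerSeries.X) : Ideal (MvPowerSeries σ R)) := by
  have := mem_span_X_pow_of_truncTotal_eq_zero p 1 ?_
  · rwa [pow_one] at this
  ext d
  by_cases hd : d = 0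
  · subst hd
    rw [MvPowerSeries.coeff_truncTotal p (by simp)]
    simpa using h
  · rw [MvPowerSeries.coeff_truncTotal_eq_zero p ?_]
    · simp
    · rw [Nat.one_le_iff_ne_zero]
      exact mt (Finsupp.degree_eq_zero_iff d).mp hd

/-- A power series minus its truncation below degree `n` lies in `(X) ^ n`. -/
theorem sub_truncTotal_mem_span_X_pow (p : MvPowerSeries σ R) (n : ℕ) :
    p - (MvPowerSeries.truncTotal n p : MvPolynomial σ R) ∈
      (Ideal.span (Set.range MvPowerSeries.X) : Ideal (MvPowerSeries σ R)) ^ n := by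
  refine mem_span_X_pow_of_truncTotal_eq_zero _ n ?_
  ext d
  by_cases hd : d.degree < n
  · rw [MvPowerSeries.coeff_truncTotal _ hd, map_sub, MvPolynomial.coeff_coe,
      MvPowerSeries.coeff_truncTotal _ hd]
    simp
  · rw [MvPowerSeries.coeff_truncTotal_eq_zero _ (not_lt.mp hd)]
    simp

end SpanX

section Approximation

/-- Successive approximation in a complete ring: a sequence compatible modulo `J n`, where
`J n ≤ J (n+1) ⊔ m ^ (n + c)`, has a limit. -/
theorem exists_limit {S : Type*} [CommRing S] (m : Ideal S) [IsPrecomplete m S] (c : ℕ)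
    (J : ℕ → Ideal S) (hJ : ∀ n, m ^ (n + c) ≤ J n) (hJ' : ∀ n, J n ≤ J (n + 1) ⊔ m ^ (n + c))
    (x : ℕ → S) (hx : ∀ n, x (n + 1) - x n ∈ J n) :
    ∃ y, (∀ n, y - x n ∈ J n) ∧ y - x 0 ∈ m ^ c := by
  have hstep : ∀ n z, z - x n ∈ J n → ∃ z', z' - x (n + 1) ∈ J (n + 1) ∧ z' - z ∈ m ^ (n + c) := by
    intro n z hz
    have h : x (n + 1) - z ∈ J (n + 1) ⊔ m ^ (n + c) := hJ' n <| by
      have := Submodule.sub_mem _ (hx n) hz
      rwa [show x (n + 1) - x n - (z - x n) = x (n + 1) - z by ring] at this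
    obtain ⟨a, ha, b, hb, hab⟩ := Submodule.mem_sup.mp h
    refine ⟨z + b, ?_, by simpa using hb⟩
    have : z + b - x (n + 1) = -a := by linear_combination hab
    rw [this]
    exact neg_mem ha
  choose! next hnext1 hnext2 using hstep
  let z : ℕ → S := fun n => Nat.rec (x 0) (fun k w => next k w) n
  have hz : ∀ n, z n - x n ∈ J n := by
    intro n
    induction n with
    | zero => simp [z]
    | succ k ih => exact hnext1 k (z k) ih
  have hdiff : ∀ n l, z (n + l) - z n ∈ m ^ (n + c) := by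
    intro n l
    induction l with
    | zero => simp
    | succ k ih =>
      have h1 : z (n + (k + 1)) - z (n + k) ∈ m ^ (n + c) :=
        Ideal.pow_le_pow_right (by omega) (hnext2 (n + k) (z (n + k)) (hz (n + k)))
      simpa using Submodule.add_mem _ h1 ih
  have hcauchy : ∀ {a b : ℕ}, a ≤ b → z a ≡ z b [SMOD (m ^ a • ⊤ : Submodule S S)] := by
    intro a b hab
    obtain ⟨l, rfl⟩ := Nat.exists_eq_add_of_le hab
    rw [SModEq.comm, SModEq.sub_mem, smul_eq_mul, Ideal.mul_top]
    exact Ideal.pow_le_pow_right (by omega) (hdiff a l)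
  obtain ⟨y, hy⟩ := IsPrecomplete.prec inferInstance (fun {a b} h => hcauchy h)
  have hy' : ∀ n, y - z n ∈ m ^ (n + c) := by
    intro n
    have h1 := hy (n + c)
    rw [SModEq.sub_mem, smul_eq_mul, Ideal.mul_top] at h1
    have h2 := Submodule.sub_mem _ (hdiff n c) h1
    rwa [show z (n + c) - z n - (z (n + c) - y) = y - z n by ring] at h2
  refine ⟨y, fun n => ?_, ?_⟩
  · simpa using Submodule.add_mem _ (hJ n (hy' n)) (hz n)
  · simpa [z] using hy' 0

end Approximation

section CompleteLocal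

variable {σ : Type*} [Finite σ] {𝒪 : Type*} [CommRing 𝒪] [IsLocalRing 𝒪]

omit [Finite σ] in
theorem mem_maximalIdeal_mvPowerSeries_iff {p : MvPowerSeries σ 𝒪} :
    p ∈ maximalIdeal (MvPowerSeries σ 𝒪) ↔
      MvPowerSeries.constantCoeff p ∈ maximalIdeal 𝒪 := by
  rw [mem_maximalIdeal, mem_maximalIdeal, mem_nonunits_iff, mem_nonunits_iff,
    MvPowerSeries.isUnit_iff_constantCoeff]

/-- The maximal ideal of `𝒪⟦X⟧` is generated by that of `𝒪` and the variables. -/
theorem maximalIdeal_mvPowerSeries_eq :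
    maximalIdeal (MvPowerSeries σ 𝒪) = (maximalIdeal 𝒪).map MvPowerSeries.C ⊔
      Ideal.span (Set.range MvPowerSeries.X) := by
  refine le_antisymm (fun p hp => ?_) (sup_le (Ideal.map_le_iff_le_comap.mpr fun a ha => ?_)
    (Ideal.span_le.mpr ?_))
  · rw [mem_maximalIdeal_mvPowerSeries_iff] at hp
    refine Submodule.mem_sup.mpr ⟨MvPowerSeries.C (MvPowerSeries.constantCoeff p),
      Ideal.mem_map_of_mem _ hp, _, mem_span_X_of_constantCoeff_eq_zero _ ?_,
      add_sub_cancel _ p⟩
    simp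
  · rw [Ideal.mem_comap, mem_maximalIdeal_mvPowerSeries_iff]
    simpa using ha
  · rintro _ ⟨i, rfl⟩
    rw [SetLike.mem_coe, mem_maximalIdeal_mvPowerSeries_iff]
    simp

omit [Finite σ] in
theorem coeff_mem_maximalIdeal_pow {n : ℕ} {p : MvPowerSeries σ 𝒪}
    (hp : p ∈ maximalIdeal (MvPowerSeries σ 𝒪) ^ n) (d : σ →₀ ℕ) :
    MvPowerSeries.coeff d p ∈ maximalIdeal 𝒪 ^ (n - d.degree) := by
  classical
  induction n generalizing p d with
  | zero => simp
  | succ n ih =>
    rw [pow_succ] at hp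
    refine Submodule.mul_induction_on hp (fun a ha b hb => ?_) (fun a b ha hb => ?_)
    · rw [MvPowerSeries.coeff_mul]
      refine Submodule.sum_mem _ fun uv huv => ?_
      rw [Finset.mem_antidiagonal] at huv
      have hdeg : uv.1.degree + uv.2.degree = d.degree := by rw [← huv, map_add]
      by_cases hv : uv.2 = 0
      · rw [hv] at hdeg ⊢
        rw [map_zero, add_zero] at hdeg
        have hb' : MvPowerSeries.coeff (0 : σ →₀ ℕ) b ∈ maximalIdeal 𝒪 := by
          simpa using mem_maximalIdeal_mvPowerSeries_iff.mp hb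
        have h := Ideal.mul_mem_mul (ih ha uv.1) hb'
        rw [← pow_succ] at h
        exact Ideal.pow_le_pow_right (by omega) h
      · have : 1 ≤ uv.2.degree :=
          Nat.one_le_iff_ne_zero.mpr (mt (Finsupp.degree_eq_zero_iff _).mp hv)
        exact Ideal.pow_le_pow_right (by omega) (Ideal.mul_mem_right _ _ (ih ha uv.1))
    · rw [map_add]
      exact Submodule.add_mem _ ha hb

theorem mem_maximalIdeal_pow_of_coeff {n : ℕ} {p : MvPowerSeries σ 𝒪}
    (hp : ∀ d : σ →₀ ℕ, d.degree < n →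
      MvPowerSeries.coeff d p ∈ maximalIdeal 𝒪 ^ (n - d.degree)) :
    p ∈ maximalIdeal (MvPowerSeries σ 𝒪) ^ n := by
  classical
  have hC : (maximalIdeal 𝒪).map MvPowerSeries.C ≤ maximalIdeal (MvPowerSeries σ 𝒪) :=
    maximalIdeal_mvPowerSeries_eq.ge.trans' le_sup_left
  have hX : Ideal.span (Set.range MvPowerSeries.X) ≤ maximalIdeal (MvPowerSeries σ 𝒪) :=
    maximalIdeal_mvPowerSeries_eq.ge.trans' le_sup_right
  let t : MvPolynomial σ 𝒪 := MvPowerSeries.truncTotal n p
  have h1 : p - (t : MvPowerSeries σ 𝒪) ∈ maximalIdeal (MvPowerSeries σ 𝒪) ^ n := by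
    exact Ideal.pow_right_mono hX n (sub_truncTotal_mem_span_X_pow p n)
  have h2 : (t : MvPowerSeries σ 𝒪) ∈ maximalIdeal (MvPowerSeries σ 𝒪) ^ n := by
    rw [t.as_sum, ← MvPolynomial.coeToMvPowerSeries.ringHom_apply, map_sum]
    refine Submodule.sum_mem _ fun d hd => ?_
    rw [MvPolynomial.coeToMvPowerSeries.ringHom_apply]
    have hdn : d.degree < n := by
      by_contra h
      exact MvPolynomial.mem_support_iff.mp hd
        (MvPowerSeries.coeff_truncTotal_eq_zero _ (not_lt.mp h))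
    rw [show t.coeff d = MvPowerSeries.coeff d p from MvPowerSeries.coeff_truncTotal _ hdn,
      MvPolynomial.monomial_eq, MvPolynomial.coe_mul, MvPolynomial.coe_C]
    have h3 := Ideal.pow_right_mono hC (n - d.degree)
      ((Ideal.map_pow MvPowerSeries.C (maximalIdeal 𝒪) (n - d.degree)).le
        (Ideal.mem_map_of_mem _ (hp d hdn)))
    have h4 : ((d.prod fun i e => (MvPolynomial.X i : MvPolynomial σ 𝒪) ^ e : MvPolynomial σ 𝒪) :
        MvPowerSeries σ 𝒪) ∈ maximalIdeal (MvPowerSeries σ 𝒪) ^ d.degree := by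
      rw [← MvPolynomial.coeToMvPowerSeries.ringHom_apply, Finsupp.prod, map_prod,
        Finsupp.degree_apply, ← Finset.prod_pow_eq_pow_sum]
      refine Ideal.prod_mem_prod fun i _ => ?_
      rw [map_pow, MvPolynomial.coeToMvPowerSeries.ringHom_apply, MvPolynomial.coe_X]
      exact Ideal.pow_mem_pow (hX (Ideal.subset_span ⟨i, rfl⟩)) _
    have h5 := Ideal.mul_mem_mul h3 h4
    rw [← pow_add, Nat.sub_add_cancel hdn.le] at h5
    exact h5
  simpa using Submodule.add_mem _ h1 h2

instance isPrecomplete_mvPowerSeries [IsPrecomplete (maximalIdeal 𝒪) 𝒪] :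
    IsPrecomplete (maximalIdeal (MvPowerSeries σ 𝒪)) (MvPowerSeries σ 𝒪) := by
  refine isPrecomplete_iff.mpr fun f hf => ?_
  have hf' : ∀ (d : σ →₀ ℕ) {a b : ℕ}, a ≤ b →
      MvPowerSeries.coeff d (f (a + d.degree)) ≡ MvPowerSeries.coeff d (f (b + d.degree))
        [SMOD (maximalIdeal 𝒪 ^ a • ⊤ : Submodule 𝒪 𝒪)] := by
    intro d a b hab
    have h := hf (show a + d.degree ≤ b + d.degree by omega)
    rw [SModEq.sub_mem, smul_eq_mul, Ideal.mul_top] at h ⊢
    simpa using coeff_mem_maximalIdeal_pow h d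
  choose L hL using fun d =>
    IsPrecomplete.prec (I := maximalIdeal 𝒪) (M := 𝒪) inferInstance (fun {a b} h => hf' d h)
  obtain ⟨M, hM⟩ : ∃ M : MvPowerSeries σ 𝒪, ∀ d, MvPowerSeries.coeff d M = L d :=
    ⟨fun d => L d, fun _ => rfl⟩
  refine ⟨M, fun n => ?_⟩
  rw [SModEq.sub_mem, smul_eq_mul, Ideal.mul_top]
  refine mem_maximalIdeal_pow_of_coeff fun d hd => ?_
  have h := hL d (n - d.degree)
  rw [SModEq.sub_mem, smul_eq_mul, Ideal.mul_top, Nat.sub_add_cancel hd.le] at h
  rwa [map_sub, hM]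

omit [Finite σ] in
/-- The residue field of a finitely generated power series ring is the residue field of `𝒪`. -/
theorem residue_mvPowerSeries_surjective :
    Function.Surjective (residue (MvPowerSeries σ 𝒪) ∘ algebraMap 𝒪 (MvPowerSeries σ 𝒪)) := by
  intro x
  obtain ⟨p, rfl⟩ := residue_surjective x
  refine ⟨MvPowerSeries.constantCoeff p, (Ideal.Quotient.eq).mpr ?_⟩
  rw [mem_maximalIdeal_mvPowerSeries_iff, map_sub]
  simp [MvPowerSeries.algebraMap_apply]

theorem finite_quotient_maximalIdeal_pow [IsNoetherianRing 𝒪] [Finite (ResidueField 𝒪)] (n : ℕ) :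
    Finite (MvPowerSeries σ 𝒪 ⧸ maximalIdeal (MvPowerSeries σ 𝒪) ^ n) := by
  have : Finite (MvPowerSeries σ 𝒪 ⧸ maximalIdeal (MvPowerSeries σ 𝒪)) := by
    refine Finite.of_surjective
      (fun x : ResidueField 𝒪 => Ideal.Quotient.mk _ (algebraMap 𝒪 (MvPowerSeries σ 𝒪)
        (Function.surjInv residue_surjective x))) fun y => ?_
    obtain ⟨a, rfl⟩ := residue_mvPowerSeries_surjective y
    refine ⟨residue 𝒪 a, (Ideal.Quotient.eq).mpr ?_⟩
    rw [mem_maximalIdeal_mvPowerSeries_iff, ← map_sub]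
    simp only [MvPowerSeries.algebraMap_apply, MvPowerSeries.constantCoeff_C,
      Algebra.algebraMap_self, RingHom.id_apply]
    exact (Ideal.Quotient.eq).mp (Function.surjInv_eq residue_surjective _)
  exact Ideal.finite_quotient_pow (IsNoetherian.noetherian _) n

end CompleteLocal

section Eval

variable {σ : Type*} [Finite σ] {𝒪 : Type*} [CommRing 𝒪]

/-- Evaluation of power series at a nilpotent family. -/
theorem exists_algHom_mvPowerSeries {A : Type*} [CommRing A] [Algebra 𝒪 A] (I : Ideal A) (n : ℕ)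
    (hI : I ^ n = ⊥) (a : σ → A) (ha : ∀ i, a i ∈ I) :
    ∃ f : MvPowerSeries σ 𝒪 →ₐ[𝒪] A, ∀ i, f (MvPowerSeries.X i) = a i := by
  have hker : ∀ x ∈ MvPolynomial.idealOfVars σ 𝒪 ^ n,
      MvPolynomial.aeval (R := 𝒪) a x = 0 := by
    intro x hx
    have h1 : MvPolynomial.idealOfVars σ 𝒪 ≤ I.comap (MvPolynomial.aeval (R := 𝒪) a) :=
      Ideal.span_le.mpr (by rintro _ ⟨i, rfl⟩; simpa using ha i)
    have h2 := Ideal.le_comap_pow _ n (Ideal.pow_right_mono h1 n hx)
    rwa [hI, Ideal.mem_comap, Ideal.mem_bot] at h2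
  refine ⟨(Ideal.Quotient.liftₐ _ (MvPolynomial.aeval (R := 𝒪) a) hker).comp
    ((MvPowerSeries.truncTotalAlgHom σ 𝒪 n).restrictScalars 𝒪), fun i => ?_⟩
  have h := (MvPowerSeries.truncTotalAlgHom σ 𝒪 n).commutes (MvPolynomial.X i)
  rw [show algebraMap (MvPolynomial σ 𝒪) (MvPowerSeries σ 𝒪) (MvPolynomial.X i) =
    MvPowerSeries.X i by simp [MvPowerSeries.algebraMap_apply']] at h
  rw [AlgHom.comp_apply, AlgHom.restrictScalars_apply, h]
  exact MvPolynomial.aeval_X a i

/-- Two maps out of a power series ring which agree on the variables and send them to a nilpotent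
ideal are equal. -/
theorem algHom_mvPowerSeries_ext {A : Type*} [CommRing A] [Algebra 𝒪 A] (I : Ideal A) (n : ℕ)
    (hI : I ^ n = ⊥) (f g : MvPowerSeries σ 𝒪 →ₐ[𝒪] A) (hf : ∀ i, f (MvPowerSeries.X i) ∈ I)
    (hfg : ∀ i, f (MvPowerSeries.X i) = g (MvPowerSeries.X i)) : f = g := by
  ext p
  let t : MvPolynomial σ 𝒪 := MvPowerSeries.truncTotal n p
  have hp : p - (t : MvPowerSeries σ 𝒪) ∈
      (Ideal.span (Set.range MvPowerSeries.X) : Ideal (MvPowerSeries σ 𝒪)) ^ n :=
    sub_truncTotal_mem_span_X_pow p n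
  have hz : ∀ h : MvPowerSeries σ 𝒪 →ₐ[𝒪] A, (∀ i, h (MvPowerSeries.X i) ∈ I) →
      h (p - (t : MvPowerSeries σ 𝒪)) = 0 := by
    intro h hh
    have h1 : (Ideal.span (Set.range MvPowerSeries.X) : Ideal (MvPowerSeries σ 𝒪)) ≤ I.comap h :=
      Ideal.span_le.mpr (by rintro _ ⟨i, rfl⟩; simpa using hh i)
    have h2 := Ideal.le_comap_pow _ n (Ideal.pow_right_mono h1 n hp)
    rwa [hI, Ideal.mem_comap, Ideal.mem_bot] at h2
  have h1 := hz f hf
  have h2 := hz g fun i => (hfg i) ▸ hf i
  rw [map_sub, sub_eq_zero] at h1 h2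
  rw [h1, h2]
  have : f.comp (MvPolynomial.coeToMvPowerSeries.algHom 𝒪) =
      g.comp (MvPolynomial.coeToMvPowerSeries.algHom 𝒪) :=
    MvPolynomial.algHom_ext fun i => by simpa using hfg i
  simpa using DFunLike.congr_fun this t

end Eval

end Fermat.Agent.Deformation
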