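import Fermat.Agent.Deformation.NormalForm
import Fermat.Agent.Deformation.TestAlgebra
import Fermat.Agent.Deformation.PowerSeries

/-!
# Coordinates on a deformation functor

If a deformation condition has finite tangent space, then finitely many matrix entries of the
normal form determine all of them, over every artinian test algebra.
-/

set_option autoImplicit false

namespace Fermat.Agent.Deformation

open IsLocalRing GaloisRep

variable {𝒪 : Type} [CommRing 𝒪] [IsLocalRing 𝒪] {ρbar : ResidualGaloisRep (ResidueField 𝒪)}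

/-- A matrix entry of a representation. -/
noncomputable def entry {A : Type} [CommRing A] [IsLocalRing A] (M : MatRep A) (t : GQ × Fin 2 × Fin 2) : A :=
  M.toHom t.1 t.2.1 t.2.2

/-- A matrix entry minus the fixed lift of its residue. -/
noncomputable def coord (Φ : Frame ρbar) {A : Type} [CommRing A] [IsLocalRing A] [Algebra 𝒪 A]
    (M : MatRep A) (t : GQ × Fin 2 × Fin 2) : A :=
  entry M t - algebraMap 𝒪 A (Φ.r0 t.1 t.2.1 t.2.2)

theorem coord_mem {Φ : Frame ρbar} {A : Type} [CommRing A] [IsLocalRing A] [Algebra 𝒪 A]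
    {M : MatRep A} (hM : Φ.IsNormal M) (t : GQ × Fin 2 × Fin 2) :
    coord Φ M t ∈ maximalIdeal A := by
  rw [← residue_eq_zero_iff, coord, map_sub, sub_eq_zero]
  exact hM.reduces _ _ _

theorem coord_map {Φ : Frame ρbar} {A B : Type} [CommRing A] [IsLocalRing A] [Algebra 𝒪 A]
    [CommRing B] [IsLocalRing B] [Algebra 𝒪 B] (M : MatRep A) (f : A →ₐ[𝒪] B)
    (hf : IsLocalHom (f : A →+* B)) (t : GQ × Fin 2 × Fin 2) :
    coord Φ (M.map (f : A →+* B) hf) t = f (coord Φ M t) := by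
  simp [coord, entry, map_sub]

/-- A deformation in normal form satisfying the condition `𝒟`. -/
structure IsDef (Φ : Frame ρbar)
    (𝒟 : ∀ ⦃A : Type⦄ [CommRing A] [IsLocalRing A] [Algebra 𝒪 A], GaloisRepAdic A → Prop)
    {A : Type} [CommRing A] [IsLocalRing A] [Algebra 𝒪 A] (M : MatRep A) : Prop where
  normal : Φ.IsNormal M
  cond : 𝒟 M.rep

variable {Φ : Frame ρbar}
  {𝒟 : ∀ ⦃A : Type⦄ [CommRing A] [IsLocalRing A] [Algebra 𝒪 A], GaloisRepAdic A → Prop}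
  {A B : Type} [CommRing A] [IsLocalRing A] [Algebra 𝒪 A] [CommRing B] [IsLocalRing B] [Algebra 𝒪 B]

theorem IsDef.map (h𝒟 : IsDeformationCondition 𝒪 𝒟) (hA : IsArtinianTestAlgebra 𝒪 A)
    (hB : IsArtinianTestAlgebra 𝒪 B) {M : MatRep A} (hM : IsDef Φ 𝒟 M) (f : A →ₐ[𝒪] B)
    (hf : IsLocalHom (f : A →+* B)) : IsDef Φ 𝒟 (M.map (f : A →+* B) hf) :=
  ⟨hM.normal.map f hf, h𝒟.of_isEquiv hB (M.rep_baseChangeAlong_isEquiv _ hf)
    (h𝒟.baseChangeAlong hA hB f hf hM.cond)⟩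

theorem IsDef.of_map (h𝒟 : IsDeformationCondition 𝒪 𝒟) (hA : IsArtinianTestAlgebra 𝒪 A)
    (hB : IsArtinianTestAlgebra 𝒪 B) {M : MatRep A} (f : A →ₐ[𝒪] B)
    (hf : IsLocalHom (f : A →+* B)) (hinj : Function.Injective f)
    (hM : IsDef Φ 𝒟 (M.map (f : A →+* B) hf)) : IsDef Φ 𝒟 M :=
  ⟨Frame.IsNormal.of_map f hf hinj hM.normal, h𝒟.of_baseChangeAlong_injective hA hB f hf hinj
    (h𝒟.of_isEquiv hB ⟨(M.rep_baseChangeAlong_isEquiv _ hf).some.symm⟩ hM.cond)⟩

/-- A deformation descends to a subalgebra containing all its entries. -/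
theorem IsDef.exists_descend [Finite A] (h𝒟 : IsDeformationCondition 𝒪 𝒟)
    (hA : IsArtinianTestAlgebra 𝒪 A) {M : MatRep A} (hM : IsDef Φ 𝒟 M) (S : Subalgebra 𝒪 A)
    [IsLocalRing S] (hS : ∀ σ i j, M.toHom σ i j ∈ S) :
    ∃ N : MatRep S, IsDef Φ 𝒟 N ∧ ∀ σ i j, (N.toHom σ i j : A) = M.toHom σ i j := by
  let ρ : GQ →* Matrix (Fin 2) (Fin 2) S :=
    { toFun := fun σ => Matrix.of fun i j => ⟨M.toHom σ i j, hS σ i j⟩
      map_one' := by
        ext i j
        simp [Matrix.one_apply]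
        split_ifs <;> simp
      map_mul' := fun σ τ => by
        ext i j
        simp [Matrix.mul_apply] }
  obtain ⟨L, hL, h⟩ := M.exists_eq_one
  have hA' := hA.isArtinian
  let N : MatRep S := MatRep.ofTrivialOn ρ L hL fun σ hσ => by
    ext i j
    show M.toHom σ i j = _
    rw [h σ hσ]
    simp [Matrix.one_apply]
    split_ifs <;> simp
  have hloc : IsLocalHom (S.val : S →+* A) := isLocalHom_of_isArtinian _
  refine ⟨N, IsDef.of_map h𝒟 (isArtinianTestAlgebra_subalgebra hA S) hA S.val hloc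
    Subtype.val_injective ?_, fun σ i j => rfl⟩
  have : N.map (S.val : S →+* A) hloc = M := MatRep.ext (MonoidHom.ext fun σ => rfl)
  rwa [this]

/-- Two deformations agreeing on the residue field combine on the fibre product. -/
theorem IsDef.exists_prod [Finite (ResidueField 𝒪)] (h𝒟 : IsDeformationCondition 𝒪 𝒟)
    {A₁ A₂ : Type} [CommRing A₁] [IsLocalRing A₁] [Algebra 𝒪 A₁] [CommRing A₂] [IsLocalRing A₂]
    [Algebra 𝒪 A₂] (h₁ : IsArtinianTestAlgebra 𝒪 A₁) (h₂ : IsArtinianTestAlgebra 𝒪 A₂)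
    {M₁ : MatRep A₁} {M₂ : MatRep A₂} (hM₁ : IsDef Φ 𝒟 M₁) (hM₂ : IsDef Φ 𝒟 M₂) :
    ∃ (S : Subalgebra 𝒪 (A₁ × A₂)) (_ : IsLocalRing S) (N : MatRep S),
      IsArtinianTestAlgebra 𝒪 S ∧ IsDef Φ 𝒟 N ∧
        ∀ σ i j, (N.toHom σ i j : A₁ × A₂) = (M₁.toHom σ i j, M₂.toHom σ i j) := by
  obtain ⟨π₁, hπ₁⟩ := exists_augmentation h₁
  obtain ⟨π₂, hπ₂⟩ := exists_augmentation h₂
  have := finite_of_isArtinianTestAlgebra h₁
  have := finite_of_isArtinianTestAlgebra h₂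
  let S : Subalgebra 𝒪 (A₁ × A₂) :=
    AlgHom.equalizer (π₁.comp (AlgHom.fst 𝒪 A₁ A₂)) (π₂.comp (AlgHom.snd 𝒪 A₁ A₂))
  have hSmem : ∀ x : A₁ × A₂, x ∈ S ↔ π₁ x.1 = π₂ x.2 := fun x => AlgHom.mem_equalizer _ _ x
  have haug : ∀ (x : A₁ × A₂), x ∈ S → ∃ a : 𝒪, x.1 - algebraMap 𝒪 A₁ a ∈ maximalIdeal A₁ ∧
      x.2 - algebraMap 𝒪 A₂ a ∈ maximalIdeal A₂ := by
    intro x hx
    obtain ⟨a, ha⟩ := exists_sub_mem_maximalIdeal h₁ x.1
    obtain ⟨b, hb⟩ := exists_sub_mem_maximalIdeal h₂ x.2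
    have hab : residue 𝒪 a = residue 𝒪 b := by
      rw [← hπ₁ _ _ ha, ← hπ₂ _ _ hb]
      exact (hSmem x).mp hx
    refine ⟨a, ha, ?_⟩
    have h3 : algebraMap 𝒪 A₂ (b - a) ∈ maximalIdeal A₂ := fun h =>
      (residue_eq_zero_iff (b - a)).mp (by rw [map_sub, hab, sub_self])
        (h₂.isLocalHom.map_nonunit _ h)
    rw [show x.2 - algebraMap 𝒪 A₂ a = (x.2 - algebraMap 𝒪 A₂ b) + algebraMap 𝒪 A₂ (b - a) by
      rw [map_sub]; ring]
    exact Ideal.add_mem _ hb h3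
  have hunit : ∀ x : S, IsUnit (x : A₁ × A₂) → IsUnit x := fun c hc => by
    obtain ⟨d, hd⟩ := Finite.surjective_of_injective (f := fun x : S => c * x)
      (fun x y hxy => Subtype.ext (hc.mul_left_cancel (congrArg Subtype.val hxy))) 1
    exact .of_mul_eq_one d hd
  have hS : IsLocalRing S := by
    refine IsLocalRing.of_isUnit_or_isUnit_one_sub_self fun x => ?_
    obtain ⟨a, ha, hb⟩ := haug x x.2
    rcases IsLocalRing.isUnit_or_isUnit_one_sub_self a with h | h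
    · refine Or.inl (hunit x (Prod.isUnit_iff.mpr ⟨?_, ?_⟩))
      · by_contra hn
        exact (show algebraMap 𝒪 A₁ a ∈ maximalIdeal A₁ by
          simpa using Submodule.sub_mem _ (show x.1.1 ∈ maximalIdeal A₁ from hn) ha) (h.map _)
      · by_contra hn
        exact (show algebraMap 𝒪 A₂ a ∈ maximalIdeal A₂ by
          simpa using Submodule.sub_mem _ (show x.1.2 ∈ maximalIdeal A₂ from hn) hb) (h.map _)
    · refine Or.inr (hunit _ (Prod.isUnit_iff.mpr ⟨?_, ?_⟩))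
      · by_contra hn
        exact (show algebraMap 𝒪 A₁ (1 - a) ∈ maximalIdeal A₁ by
          simpa using Submodule.add_mem _ (show 1 - x.1.1 ∈ maximalIdeal A₁ from hn) ha) (h.map _)
      · by_contra hn
        exact (show algebraMap 𝒪 A₂ (1 - a) ∈ maximalIdeal A₂ by
          simpa using Submodule.add_mem _ (show 1 - x.1.2 ∈ maximalIdeal A₂ from hn) hb) (h.map _)
  have hT : IsArtinianTestAlgebra 𝒪 S := by
    refine isArtinianTestAlgebra_of_finite ⟨fun a ha => ?_⟩ fun x => ?_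
    · exact h₁.isLocalHom.map_nonunit a (Prod.isUnit_iff.mp (ha.map S.val)).1
    · obtain ⟨a, ha, -⟩ := haug x x.2
      exact ⟨a, fun h => ha (Prod.isUnit_iff.mp (h.map S.val)).1⟩
  have hmem : ∀ σ i j, ((M₁.toHom σ i j, M₂.toHom σ i j) : A₁ × A₂) ∈ S := by
    intro σ i j
    rw [hSmem]
    have e₁ := coord_mem hM₁.normal (σ, i, j)
    have e₂ := coord_mem hM₂.normal (σ, i, j)
    exact (hπ₁ _ _ e₁).trans (hπ₂ _ _ e₂).symm
  have hA₁ := h₁.isArtinian
  have hA₂ := h₂.isArtinian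
  obtain ⟨L₁, hL₁, e₁⟩ := M₁.exists_eq_one
  obtain ⟨L₂, hL₂, e₂⟩ := M₂.exists_eq_one
  let ρ : GQ →* Matrix (Fin 2) (Fin 2) S :=
    { toFun := fun σ => Matrix.of fun i j => ⟨(M₁.toHom σ i j, M₂.toHom σ i j), hmem σ i j⟩
      map_one' := by
        ext i j <;> simp [Matrix.one_apply] <;> split_ifs <;> simp
      map_mul' := fun σ τ => by
        ext i j <;> simp [Matrix.mul_apply] }
  let N : MatRep S := MatRep.ofTrivialOn ρ (L₁ ⊔ L₂) inferInstance fun σ hσ => by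
    have f₁ := e₁ σ fun x hx => hσ x ((le_sup_left : L₁ ≤ L₁ ⊔ L₂) hx)
    have f₂ := e₂ σ fun x hx => hσ x ((le_sup_right : L₂ ≤ L₁ ⊔ L₂) hx)
    ext i j <;> simp [ρ, f₁, f₂, Matrix.one_apply] <;> split_ifs <;> simp
  refine ⟨S, hS, N, hT, ?_, fun σ i j => rfl⟩
  let p₁ : S →ₐ[𝒪] A₁ := (AlgHom.fst 𝒪 A₁ A₂).comp S.val
  let p₂ : S →ₐ[𝒪] A₂ := (AlgHom.snd 𝒪 A₁ A₂).comp S.val
  have hp₁ : IsLocalHom (p₁ : S →+* A₁) := isLocalHom_of_isArtinian _
  have hp₂ : IsLocalHom (p₂ : S →+* A₂) := isLocalHom_of_isArtinian _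
  have hN₁ : N.map (p₁ : S →+* A₁) hp₁ = M₁ := MatRep.ext (MonoidHom.ext fun σ => rfl)
  have hN₂ : N.map (p₂ : S →+* A₂) hp₂ = M₂ := MatRep.ext (MonoidHom.ext fun σ => rfl)
  refine ⟨⟨fun σ i j => ?_, ?_, ?_, ?_⟩, ?_⟩
  · exact (ResidueField.map (p₁ : S →+* A₁)).injective (by
      rw [ResidueField.map_residue, ResidueField.map_residue]
      exact (hM₁.normal.reduces σ i j).trans (congrArg (residue A₁) (p₁.commutes _).symm))
  · refine Subtype.ext (Prod.ext ?_ ?_)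
    · have := hM₁.normal.x01; rw [← hN₁] at this
      simpa [Frame.combX_apply, p₁, Prod.fst_sum] using this
    · have := hM₂.normal.x01; rw [← hN₂] at this
      simpa [Frame.combX_apply, p₂, Prod.snd_sum] using this
  · refine Subtype.ext (Prod.ext ?_ ?_)
    · have := hM₁.normal.x10; rw [← hN₁] at this
      simpa [Frame.combX_apply, p₁, Prod.fst_sum] using this
    · have := hM₂.normal.x10; rw [← hN₂] at this
      simpa [Frame.combX_apply, p₂, Prod.snd_sum] using this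
  · refine Subtype.ext (Prod.ext ?_ ?_)
    · have := hM₁.normal.y01; rw [← hN₁] at this
      simpa [Frame.combY_apply, p₁, Prod.fst_sum] using this
    · have := hM₂.normal.y01; rw [← hN₂] at this
      simpa [Frame.combY_apply, p₂, Prod.snd_sum] using this
  · refine h𝒟.of_fibreProduct h₁ h₂ isArtinianTestAlgebra_residueField hT π₁ π₂ p₁ p₂ hp₁ hp₂
      (AlgHom.ext fun x => (hSmem _).mp x.2)
      (fun x y hxy => Subtype.ext hxy)
      (fun a b hab => ⟨⟨(a, b), (hSmem _).mpr hab⟩, rfl, rfl⟩)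
      (h𝒟.of_isEquiv h₁ ⟨(N.rep_baseChangeAlong_isEquiv _ hp₁).some.symm⟩ ?_)
      (h𝒟.of_isEquiv h₂ ⟨(N.rep_baseChangeAlong_isEquiv _ hp₂).some.symm⟩ ?_)
    · rw [hN₁]; exact hM₁.cond
    · rw [hN₂]; exact hM₂.cond

end Fermat.Agent.Deformation
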