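import Fermat.Agent.Deformation.Tangent

/-!
# The finite levels of the universal deformation

For every `n` there is a smallest ideal of `𝒪⟦X_t : t ∈ F⟧` containing the `n+1`-st power of the
maximal ideal whose quotient carries a deformation with coordinates `X_t`.
-/

set_option autoImplicit false

namespace Fermat.Agent.Deformation

open IsLocalRing GaloisRep

variable {𝒪 : Type} [CommRing 𝒪] [IsLocalRing 𝒪] {ρbar : ResidualGaloisRep (ResidueField 𝒪)}
  (Φ : Frame ρbar)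
  (𝒟 : ∀ ⦃A : Type⦄ [CommRing A] [IsLocalRing A] [Algebra 𝒪 A], GaloisRepAdic A → Prop)
  (F : Finset (GQ × Fin 2 × Fin 2))

/-- An ideal of the coordinate ring whose quotient carries a deformation with the tautological
coordinates. -/
def Good (K : Ideal (MvPowerSeries F 𝒪)) : Prop :=
  ∃ (_ : IsLocalRing (MvPowerSeries F 𝒪 ⧸ K)) (M : MatRep (MvPowerSeries F 𝒪 ⧸ K)),
    IsArtinianTestAlgebra 𝒪 (MvPowerSeries F 𝒪 ⧸ K) ∧ IsDef Φ 𝒟 M ∧
      ∀ t : F, coord Φ M t = Ideal.Quotient.mk K (MvPowerSeries.X t)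

/-- The smallest good ideal of level `n`. -/
noncomputable def levelIdeal (n : ℕ) : Ideal (MvPowerSeries F 𝒪) :=
  sInf {K | Good Φ 𝒟 F K ∧ maximalIdeal (MvPowerSeries F 𝒪) ^ (n + 1) ≤ K}

variable {Φ 𝒟 F}

/-- Evaluation at the coordinates of any deformation has good kernel and contains all entries. -/
theorem good_ker [Finite (ResidueField 𝒪)] (h𝒟 : IsDeformationCondition 𝒪 𝒟)
    (hF : Separates Φ 𝒟 F) {A : Type} [CommRing A] [IsLocalRing A] [Algebra 𝒪 A]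
    (hA : IsArtinianTestAlgebra 𝒪 A) {M : MatRep A} (hM : IsDef Φ 𝒟 M)
    (f : MvPowerSeries F 𝒪 →ₐ[𝒪] A) (hf : ∀ t : F, f (MvPowerSeries.X t) = coord Φ M t) :
    Good Φ 𝒟 F (RingHom.ker f) := by
  have := finite_of_isArtinianTestAlgebra hA
  have hS : IsLocalRing f.range := isLocalRing_subalgebra f.range
  have hmem : ∀ σ i j, M.toHom σ i j ∈ f.range := fun σ i j =>
    entry_mem_range h𝒟 hF hA hM f hf (σ, i, j)
  obtain ⟨N, hN, hNM⟩ := hM.exists_descend h𝒟 hA f.range hmem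
  have hsurj : Function.Surjective f.rangeRestrict := f.rangeRestrict_surjective
  have hker : RingHom.ker f.rangeRestrict = RingHom.ker f := by
    ext x
    simp [RingHom.mem_ker, Subtype.ext_iff]
  let e : f.range ≃ₐ[𝒪] MvPowerSeries F 𝒪 ⧸ RingHom.ker f :=
    (Ideal.quotientKerAlgEquivOfSurjective hsurj).symm.trans
      (Ideal.quotientEquivAlgOfEq 𝒪 hker)
  have hloc : IsLocalRing (MvPowerSeries F 𝒪 ⧸ RingHom.ker f) :=
    e.toRingEquiv.isLocalRing
  have hTS := isArtinianTestAlgebra_subalgebra hA f.range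
  have hTS' := hTS.isArtinian
  have : Finite (MvPowerSeries F 𝒪 ⧸ RingHom.ker f) := Finite.of_equiv _ e.toEquiv
  have hT : IsArtinianTestAlgebra 𝒪 (MvPowerSeries F 𝒪 ⧸ RingHom.ker f) := by
    refine isArtinianTestAlgebra_of_finite ⟨fun a ha => ?_⟩ fun x => ?_
    · rw [← e.commutes] at ha
      exact hTS.isLocalHom.map_nonunit a (by simpa using ha.map e.symm)
    · obtain ⟨a, ha⟩ := exists_sub_mem_maximalIdeal hTS (e.symm x)
      refine ⟨a, fun h => ha ?_⟩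
      simpa using h.map e.symm
  have he : IsLocalHom ((e : f.range →ₐ[𝒪] MvPowerSeries F 𝒪 ⧸ RingHom.ker f) :
      f.range →+* MvPowerSeries F 𝒪 ⧸ RingHom.ker f) := isLocalHom_of_isArtinian _
  refine ⟨hloc, _, hT, hN.map h𝒟 hTS hT _ he, fun t => ?_⟩
  rw [coord_map]
  have : coord Φ N t = f.rangeRestrict (MvPowerSeries.X t) := Subtype.ext (by
    show _ = f (MvPowerSeries.X t)
    rw [hf]
    simp [coord, entry, hNM])
  rw [this]
  show e (f.rangeRestrict _) = _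
  simp [e]

variable [IsNoetherianRing 𝒪] [Finite (ResidueField 𝒪)]

omit [IsNoetherianRing 𝒪] in
/-- A proper ideal above a good ideal is good. -/
theorem Good.mono (h𝒟 : IsDeformationCondition 𝒪 𝒟) {K K' : Ideal (MvPowerSeries F 𝒪)}
    (h : Good Φ 𝒟 F K) (hle : K ≤ K') (hK' : K' ≠ ⊤) : Good Φ 𝒟 F K' := by
  obtain ⟨hl, M, hT, hM, hc⟩ := h
  have : Nontrivial (MvPowerSeries F 𝒪 ⧸ K') := Ideal.Quotient.nontrivial_iff.mpr hK'
  have hl' : IsLocalRing (MvPowerSeries F 𝒪 ⧸ K') :=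
    .of_surjective' (Ideal.Quotient.mk K') Ideal.Quotient.mk_surjective
  have := finite_of_isArtinianTestAlgebra hT
  have : Finite (MvPowerSeries F 𝒪 ⧸ K') :=
    Finite.of_surjective _ (Ideal.Quotient.factor_surjective hle)
  let q : (MvPowerSeries F 𝒪 ⧸ K) →ₐ[𝒪] MvPowerSeries F 𝒪 ⧸ K' :=
    Ideal.Quotient.factorₐ 𝒪 hle
  have := hT.isArtinian
  have hq : IsLocalHom (q : (MvPowerSeries F 𝒪 ⧸ K) →+* MvPowerSeries F 𝒪 ⧸ K') :=
    isLocalHom_of_isArtinian _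
  have hT' : IsArtinianTestAlgebra 𝒪 (MvPowerSeries F 𝒪 ⧸ K') := by
    refine isArtinianTestAlgebra_of_finite ⟨fun a ha => ?_⟩ fun x => ?_
    · rw [← q.commutes] at ha
      exact hT.isLocalHom.map_nonunit a (hq.map_nonunit _ ha)
    · obtain ⟨y, rfl⟩ := Ideal.Quotient.factor_surjective hle x
      obtain ⟨a, ha⟩ := exists_sub_mem_maximalIdeal hT y
      exact ⟨a, fun h => ha (hq.map_nonunit _ (by
        show IsUnit (q (y - algebraMap 𝒪 _ a))
        rw [map_sub, q.commutes]; exact h))⟩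
  refine ⟨hl', _, hT', hM.map h𝒟 hT hT' q hq, fun t => ?_⟩
  rw [coord_map, hc]
  rfl

omit [IsNoetherianRing 𝒪] in
/-- Good ideals are closed under intersection. -/
theorem Good.inf (h𝒟 : IsDeformationCondition 𝒪 𝒟) (hF : Separates Φ 𝒟 F)
    {K K' : Ideal (MvPowerSeries F 𝒪)} (h : Good Φ 𝒟 F K) (h' : Good Φ 𝒟 F K') :
    Good Φ 𝒟 F (K ⊓ K') := by
  obtain ⟨hl, M, hT, hM, hc⟩ := h
  obtain ⟨hl', M', hT', hM', hc'⟩ := h'
  obtain ⟨S, hS, N, hTS, hN, hNM⟩ := IsDef.exists_prod h𝒟 hT hT' hM hM'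
  have := hT.isArtinian
  have := hT'.isArtinian
  have := hTS.isArtinian
  obtain ⟨n, hn⟩ := exists_pow_maximalIdeal_eq_bot (A := S)
  obtain ⟨g, hg⟩ := exists_algHom_mvPowerSeries (𝒪 := 𝒪) (maximalIdeal S) n hn
    (fun t : F => coord Φ N t) (fun t => coord_mem hN.normal _)
  have e₁ : ∀ t : F, ((coord Φ N t : S) : _ × (MvPowerSeries F 𝒪 ⧸ K')).1 =
      Ideal.Quotient.mk K (MvPowerSeries.X t) := fun t => by
    rw [← hc]; simp [coord, entry, hNM]
  have e₂ : ∀ t : F, ((coord Φ N t : S) : (MvPowerSeries F 𝒪 ⧸ K) × _).2 =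
      Ideal.Quotient.mk K' (MvPowerSeries.X t) := fun t => by
    rw [← hc']; simp [coord, entry, hNM]
  obtain ⟨m, hm⟩ := exists_pow_maximalIdeal_eq_bot (A := MvPowerSeries F 𝒪 ⧸ K)
  obtain ⟨m', hm'⟩ := exists_pow_maximalIdeal_eq_bot (A := MvPowerSeries F 𝒪 ⧸ K')
  have h₁ : ((AlgHom.fst 𝒪 _ _).comp S.val).comp g = Ideal.Quotient.mkₐ 𝒪 K := by
    refine algHom_mvPowerSeries_ext _ m hm _ _ (fun t => ?_) fun t => ?_
    · show (S.val (g (MvPowerSeries.X t))).1 ∈ _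
      rw [hg, Subalgebra.coe_val, e₁, ← hc]
      exact coord_mem hM.normal _
    · show (S.val (g (MvPowerSeries.X t))).1 = _
      rw [hg, Subalgebra.coe_val, e₁]
      rfl
  have h₂ : ((AlgHom.snd 𝒪 _ _).comp S.val).comp g = Ideal.Quotient.mkₐ 𝒪 K' := by
    refine algHom_mvPowerSeries_ext _ m' hm' _ _ (fun t => ?_) fun t => ?_
    · show (S.val (g (MvPowerSeries.X t))).2 ∈ _
      rw [hg, Subalgebra.coe_val, e₂, ← hc']
      exact coord_mem hM'.normal _
    · show (S.val (g (MvPowerSeries.X t))).2 = _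
      rw [hg, Subalgebra.coe_val, e₂]
      rfl
  convert good_ker h𝒟 hF hTS hN g hg using 1
  ext x
  rw [Submodule.mem_inf, RingHom.mem_ker]
  have a₁ : (S.val (g x)).1 = Ideal.Quotient.mk K x := DFunLike.congr_fun h₁ x
  have a₂ : (S.val (g x)).2 = Ideal.Quotient.mk K' x := DFunLike.congr_fun h₂ x
  rw [← Ideal.Quotient.eq_zero_iff_mem, ← Ideal.Quotient.eq_zero_iff_mem, ← a₁, ← a₂,
    Subtype.ext_iff, Prod.ext_iff]
  rfl

omit [IsNoetherianRing 𝒪] [Finite (ResidueField 𝒪)] in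
/-- The residual representation gives a deformation over the residue field. -/
theorem exists_isDef_residueField (h𝒟 : IsDeformationCondition 𝒪 𝒟)
    (hbar : 𝒟 (GaloisRepAdic.ofResidualGaloisRep ρbar)) :
    ∃ M : MatRep (ResidueField 𝒪), IsDef Φ 𝒟 M := by
  classical
  let ρ0 : GQ →* Matrix (Fin 2) (Fin 2) (ResidueField 𝒪) :=
    (LinearMap.toMatrixAlgEquiv Φ.basis).toAlgHom.toMonoidHom.comp ρbar.ρ
  obtain ⟨L, hL, hfix⟩ := ρbar.factorsThroughFiniteLevel
  let M : MatRep (ResidueField 𝒪) := MatRep.ofTrivialOn ρ0 L hL fun σ hσ => by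
    show LinearMap.toMatrixAlgEquiv Φ.basis (ρbar.ρ σ) = 1
    rw [hfix σ hσ, map_one]
  have he : (GaloisRepAdic.ofResidualGaloisRep ρbar).IsEquiv M.rep :=
    ⟨⟨Φ.basis.equivFun, fun σ x => (LinearMap.toMatrix_mulVec_repr Φ.basis Φ.basis (ρbar.ρ σ) x).symm⟩⟩
  refine ⟨M, ⟨fun σ i j => ?_, ?_, ?_, ?_⟩, h𝒟.of_isEquiv isArtinianTestAlgebra_residueField he hbar⟩
  · congr 1
    rw [ResidueField.algebraMap_eq, Φ.residue_r0]
    rfl
  · have h : Φ.combX M = Matrix.single 0 0 1 := by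
      rw [← Φ.hX]; simp only [Frame.combX, ResidueField.algebraMap_eq]; rfl
    simp [h]
  · have h : Φ.combX M = Matrix.single 0 0 1 := by
      rw [← Φ.hX]; simp only [Frame.combX, ResidueField.algebraMap_eq]; rfl
    simp [h]
  · have h : Φ.combY M = Matrix.single 0 1 1 := by
      rw [← Φ.hY]; simp only [Frame.combY, ResidueField.algebraMap_eq]; rfl
    simp [h]

variable (h𝒟 : IsDeformationCondition 𝒪 𝒟) (hbar : 𝒟 (GaloisRepAdic.ofResidualGaloisRep ρbar))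
  (hF : Separates Φ 𝒟 F)

include h𝒟 hbar hF

/-- The smallest good ideal of each level is good. -/
theorem good_levelIdeal (n : ℕ) :
    Good Φ 𝒟 F (levelIdeal Φ 𝒟 F n) ∧
      maximalIdeal (MvPowerSeries F 𝒪) ^ (n + 1) ≤ levelIdeal Φ 𝒟 F n := by
  classical
  set m := maximalIdeal (MvPowerSeries F 𝒪) with hm
  refine ⟨?_, le_sInf fun K hK => hK.2⟩
  have hfin : {K : Ideal (MvPowerSeries F 𝒪) | Good Φ 𝒟 F K ∧ m ^ (n + 1) ≤ K}.Finite := by
    refine Set.Finite.subset ?_ (fun K hK => hK.2)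
    have := finite_quotient_maximalIdeal_pow (σ := F) (𝒪 := 𝒪) (n + 1)
    have : Finite (Ideal (MvPowerSeries F 𝒪 ⧸ m ^ (n + 1))) :=
      Finite.of_injective (fun I => (I : Set (MvPowerSeries F 𝒪 ⧸ m ^ (n + 1))))
        SetLike.coe_injective
    refine Set.Finite.of_finite_image (f := Ideal.map (Ideal.Quotient.mk (m ^ (n + 1))))
      (Set.toFinite _) ?_
    intro K hK K' hK' h
    have := congrArg (Ideal.comap (Ideal.Quotient.mk (m ^ (n + 1)))) h
    rwa [Ideal.comap_map_of_surjective _ Ideal.Quotient.mk_surjective,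
      Ideal.comap_map_of_surjective _ Ideal.Quotient.mk_surjective, ← RingHom.ker_eq_comap_bot,
      Ideal.mk_ker, sup_eq_left.mpr (show m ^ (n + 1) ≤ K from hK),
      sup_eq_left.mpr (show m ^ (n + 1) ≤ K' from hK')] at this
  obtain ⟨M₀, hM₀⟩ := exists_isDef_residueField (Φ := Φ) h𝒟 hbar
  have hbot : maximalIdeal (ResidueField 𝒪) = ⊥ :=
    (Ideal.eq_bot_or_top _).resolve_right (Ideal.IsMaximal.ne_top inferInstance)
  obtain ⟨f₀, hf₀⟩ := exists_algHom_mvPowerSeries (𝒪 := 𝒪) (σ := F)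
    (maximalIdeal (ResidueField 𝒪)) 1 (by rw [pow_one, hbot])
    (fun t : F => coord Φ M₀ t) (fun t => coord_mem hM₀.normal _)
  have hK₀ : m ^ (n + 1) ≤ RingHom.ker f₀ := by
    refine (Ideal.pow_le_self (Nat.succ_ne_zero n)).trans ?_
    rw [hm, maximalIdeal_mvPowerSeries_eq]
    refine sup_le (Ideal.map_le_iff_le_comap.mpr fun a ha => ?_) (Ideal.span_le.mpr ?_)
    · rw [Ideal.mem_comap, RingHom.mem_ker,
        show MvPowerSeries.C a = algebraMap 𝒪 (MvPowerSeries F 𝒪) a by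
          simp [MvPowerSeries.algebraMap_apply]]
      exact (f₀.commutes a).trans (by rwa [ResidueField.algebraMap_eq, residue_eq_zero_iff])
    · rintro _ ⟨t, rfl⟩
      rw [SetLike.mem_coe, RingHom.mem_ker, hf₀]
      rw [← Ideal.mem_bot, ← hbot]
      exact coord_mem hM₀.normal (t : GQ × Fin 2 × Fin 2)
  have hne : hfin.toFinset.Nonempty := ⟨_, hfin.mem_toFinset.mpr
    ⟨good_ker h𝒟 hF isArtinianTestAlgebra_residueField hM₀ f₀ hf₀, hK₀⟩⟩
  have h := Finset.inf'_induction hne id (p := Good Φ 𝒟 F)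
    (fun _ h₁ _ h₂ => h₁.inf h𝒟 hF h₂) fun K hK => (hfin.mem_toFinset.mp hK).1
  convert h using 1
  rw [Finset.inf'_eq_inf, levelIdeal, Finset.inf_id_eq_sInf, hfin.coe_toFinset]

theorem levelIdeal_succ_le (n : ℕ) : levelIdeal Φ 𝒟 F (n + 1) ≤ levelIdeal Φ 𝒟 F n :=
  sInf_le ⟨(good_levelIdeal h𝒟 hbar hF n).1, (Ideal.pow_le_pow_right (Nat.le_succ _)).trans
    (good_levelIdeal h𝒟 hbar hF n).2⟩

theorem levelIdeal_antitone : Antitone (levelIdeal Φ 𝒟 F) :=
  antitone_nat_of_succ_le (levelIdeal_succ_le h𝒟 hbar hF)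

theorem levelIdeal_le_maximalIdeal (n : ℕ) :
    levelIdeal Φ 𝒟 F n ≤ maximalIdeal (MvPowerSeries F 𝒪) := by
  obtain ⟨hl, -⟩ := (good_levelIdeal h𝒟 hbar hF n).1
  exact le_maximalIdeal fun h => not_nontrivial_iff_subsingleton.mpr
    (Ideal.Quotient.subsingleton_iff.mpr h) hl.toNontrivial

theorem levelIdeal_le_sup (n : ℕ) :
    levelIdeal Φ 𝒟 F n ≤
      levelIdeal Φ 𝒟 F (n + 1) ⊔ maximalIdeal (MvPowerSeries F 𝒪) ^ (n + 1) := by
  have hle : levelIdeal Φ 𝒟 F (n + 1) ⊔ maximalIdeal (MvPowerSeries F 𝒪) ^ (n + 1) ≤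
      maximalIdeal (MvPowerSeries F 𝒪) :=
    sup_le (levelIdeal_le_maximalIdeal h𝒟 hbar hF _) (Ideal.pow_le_self (Nat.succ_ne_zero n))
  exact sInf_le ⟨(good_levelIdeal h𝒟 hbar hF (n + 1)).1.mono h𝒟 le_sup_left
    (ne_top_of_le_ne_top (Ideal.IsMaximal.ne_top inferInstance) hle), le_sup_right⟩

end Fermat.Agent.Deformation
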