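import Fermat.Agent.Deformation.MatrixRep
import Fermat.Agent.Deformation.Burnside
import Mathlib.RingTheory.Henselian

/-!
# Normal forms of deformations of an absolutely irreducible representation

Once a combination of group elements acting residually as `E₁₁`, and one acting as `E₁₂`, are
fixed, every deformation has exactly one matrix form in which the first combination is diagonal
and the second has upper right entry `1`.
-/

set_option autoImplicit false

namespace Fermat.Agent.Deformation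

open IsLocalRing Matrix
open scoped TensorProduct

variable {𝒪 : Type} [CommRing 𝒪] [IsLocalRing 𝒪]

/-- A basis of the residual representation together with combinations of group elements acting as
the elementary matrices `E₁₁` and `E₁₂`. -/
structure Frame (ρbar : ResidualGaloisRep (ResidueField 𝒪)) where
  basis : Module.Basis (Fin 2) (ResidueField 𝒪) ρbar.V
  sX : Finset GQ
  cX : GQ → 𝒪
  sY : Finset GQ
  cY : GQ → 𝒪
  hX : ∑ σ ∈ sX, residue 𝒪 (cX σ) • LinearMap.toMatrix basis basis (ρbar.ρ σ) = Matrix.single 0 0 1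
  hY : ∑ σ ∈ sY, residue 𝒪 (cY σ) • LinearMap.toMatrix basis basis (ρbar.ρ σ) = Matrix.single 0 1 1

/-- An absolutely irreducible representation has a frame. -/
theorem exists_frame (ρbar : ResidualGaloisRep (ResidueField 𝒪))
    (habs : ρbar.IsAbsolutelyIrreducible) : Nonempty (Frame ρbar) := by
  classical
  let k := ResidueField 𝒪
  let K := AlgebraicClosure k
  let b : Module.Basis (Fin 2) k ρbar.V :=
    Module.finBasisOfFinrankEq k ρbar.V ρbar.finrank_eq
  let ρ0 : GQ →* Matrix (Fin 2) (Fin 2) k :=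
    (LinearMap.toMatrixAlgEquiv b).toAlgHom.toMonoidHom.comp ρbar.ρ
  let bK : Module.Basis (Fin 2) K (K ⊗[k] ρbar.V) := Algebra.TensorProduct.basis K b
  have hK : Submodule.span K (Set.range fun σ => (ρ0 σ).map (algebraMap k K)) = ⊤ := by
    refine span_range_eq_top_of_irreducible
      ((algebraMap k K).mapMatrix.toMonoidHom.comp ρ0) fun W hW => ?_
    let e : (K ⊗[k] ρbar.V) ≃ₗ[K] (Fin 2 → K) := bK.equivFun
    have hinv : ∀ σ : GQ, ∀ x ∈ W.comap (e : (K ⊗[k] ρbar.V) →ₗ[K] (Fin 2 → K)),
        (ρbar.ρ σ).baseChange K x ∈ W.comap (e : (K ⊗[k] ρbar.V) →ₗ[K] (Fin 2 → K)) := by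
      intro σ x hx
      rw [Submodule.mem_comap, LinearEquiv.coe_coe] at hx ⊢
      have := hW σ _ hx
      convert this using 1
      have h1 := LinearMap.toMatrix_mulVec_repr bK bK ((ρbar.ρ σ).baseChange K) x
      rw [LinearMap.toMatrix_baseChange] at h1
      exact h1.symm
    rcases habs (W.comap (e : (K ⊗[k] ρbar.V) →ₗ[K] (Fin 2 → K))) hinv with h | h
    · left
      rw [← Submodule.map_comap_eq_of_surjective e.surjective W, h,
        Submodule.map_bot]
    · right
      rw [← Submodule.map_comap_eq_of_surjective e.surjective W, h,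
        Submodule.map_top, LinearEquiv.range]
  have hk := span_range_eq_top_of_map (algebraMap k K) ρ0 hK
  have hlift : ∀ m : Matrix (Fin 2) (Fin 2) k, ∃ (s : Finset GQ) (c : GQ → 𝒪),
      ∑ σ ∈ s, residue 𝒪 (c σ) • ρ0 σ = m := by
    intro m
    obtain ⟨c, hc⟩ := Finsupp.mem_span_range_iff_exists_finsupp.mp
      (hk.ge (Submodule.mem_top : m ∈ ⊤))
    refine ⟨c.support, fun σ => Function.surjInv residue_surjective (c σ), ?_⟩
    rw [← hc, Finsupp.sum]
    exact Finset.sum_congr rfl fun σ _ => by rw [Function.surjInv_eq residue_surjective]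
  obtain ⟨sX, cX, hX⟩ := hlift (Matrix.single 0 0 1)
  obtain ⟨sY, cY, hY⟩ := hlift (Matrix.single 0 1 1)
  exact ⟨⟨b, sX, cX, sY, cY, hX, hY⟩⟩

namespace Frame

variable {ρbar : ResidualGaloisRep (ResidueField 𝒪)} (Φ : Frame ρbar)

/-- Fixed lifts of the matrices of the residual representation. -/
noncomputable def r0 (σ : GQ) : Matrix (Fin 2) (Fin 2) 𝒪 :=
  (LinearMap.toMatrix Φ.basis Φ.basis (ρbar.ρ σ)).map (Function.surjInv residue_surjective)

theorem residue_r0 (σ : GQ) (i j : Fin 2) :
    residue 𝒪 (Φ.r0 σ i j) = LinearMap.toMatrix Φ.basis Φ.basis (ρbar.ρ σ) i j :=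
  Function.surjInv_eq residue_surjective _

variable {A B : Type} [CommRing A] [IsLocalRing A] [Algebra 𝒪 A]
  [CommRing B] [IsLocalRing B] [Algebra 𝒪 B]

/-- The combination acting residually as `E₁₁`. -/
noncomputable def combX (M : MatRep A) : Matrix (Fin 2) (Fin 2) A :=
  ∑ σ ∈ Φ.sX, algebraMap 𝒪 A (Φ.cX σ) • M.toHom σ

/-- The combination acting residually as `E₁₂`. -/
noncomputable def combY (M : MatRep A) : Matrix (Fin 2) (Fin 2) A :=
  ∑ σ ∈ Φ.sY, algebraMap 𝒪 A (Φ.cY σ) • M.toHom σ

theorem combX_apply (M : MatRep A) (i j : Fin 2) :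
    Φ.combX M i j = ∑ σ ∈ Φ.sX, algebraMap 𝒪 A (Φ.cX σ) * M.toHom σ i j := by
  simp only [combX, Matrix.sum_apply, Matrix.smul_apply, smul_eq_mul]

theorem combY_apply (M : MatRep A) (i j : Fin 2) :
    Φ.combY M i j = ∑ σ ∈ Φ.sY, algebraMap 𝒪 A (Φ.cY σ) * M.toHom σ i j := by
  simp only [combY, Matrix.sum_apply, Matrix.smul_apply, smul_eq_mul]

/-- The representation reduces to the fixed residual matrices. -/
def Reduces (M : MatRep A) : Prop :=
  ∀ σ i j, residue A (M.toHom σ i j) = residue A (algebraMap 𝒪 A (Φ.r0 σ i j))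

/-- The normal form. -/
structure IsNormal (M : MatRep A) : Prop where
  reduces : Φ.Reduces M
  x01 : Φ.combX M 0 1 = 0
  x10 : Φ.combX M 1 0 = 0
  y01 : Φ.combY M 0 1 = 1

variable {Φ}

theorem residue_comb [IsLocalHom (algebraMap 𝒪 A)] {M : MatRep A} (hM : Φ.Reduces M)
    (s : Finset GQ) (c : GQ → 𝒪) (E : Matrix (Fin 2) (Fin 2) (ResidueField 𝒪))
    (hE : ∑ σ ∈ s, residue 𝒪 (c σ) • LinearMap.toMatrix Φ.basis Φ.basis (ρbar.ρ σ) = E)
    (i j : Fin 2) :
    residue A (∑ σ ∈ s, algebraMap 𝒪 A (c σ) * M.toHom σ i j) =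
      ResidueField.map (algebraMap 𝒪 A) (E i j) := by
  simp only [← hE, Matrix.sum_apply, Matrix.smul_apply, smul_eq_mul, map_sum, map_mul,
    ← Φ.residue_r0, ResidueField.map_residue]
  exact Finset.sum_congr rfl fun σ _ => by rw [hM σ i j]

theorem residue_combX [IsLocalHom (algebraMap 𝒪 A)] {M : MatRep A} (hM : Φ.Reduces M) (i j : Fin 2) :
    residue A (Φ.combX M i j) = if i = 0 ∧ j = 0 then 1 else 0 := by
  rw [combX_apply, residue_comb hM _ _ _ Φ.hX, Matrix.single_apply]
  split_ifs <;> simp_all [eq_comm]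

theorem residue_combY [IsLocalHom (algebraMap 𝒪 A)] {M : MatRep A} (hM : Φ.Reduces M) (i j : Fin 2) :
    residue A (Φ.combY M i j) = if i = 0 ∧ j = 1 then 1 else 0 := by
  rw [combY_apply, residue_comb hM _ _ _ Φ.hY, Matrix.single_apply]
  split_ifs <;> simp_all [eq_comm]

theorem IsNormal.map {M : MatRep A} (hM : Φ.IsNormal M) (f : A →ₐ[𝒪] B)
    (hf : IsLocalHom (f : A →+* B)) : Φ.IsNormal (M.map (f : A →+* B) hf) := by
  refine ⟨fun σ i j => ?_, ?_, ?_, ?_⟩
  · have h := congrArg (ResidueField.map (f : A →+* B)) (hM.reduces σ i j)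
    rw [ResidueField.map_residue, ResidueField.map_residue] at h
    rw [MatRep.map_toHom_apply, h]
    congr 1
    exact f.commutes _
  all_goals simp only [combX_apply, combY_apply, MatRep.map_toHom_apply]
  · simpa [combX_apply] using congrArg f hM.x01
  · simpa [combX_apply] using congrArg f hM.x10
  · simpa [combY_apply] using congrArg f hM.y01

theorem IsNormal.of_map {M : MatRep A} (f : A →ₐ[𝒪] B) (hf : IsLocalHom (f : A →+* B))
    (hinj : Function.Injective f) (hM : Φ.IsNormal (M.map (f : A →+* B) hf)) : Φ.IsNormal M := by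
  refine ⟨fun σ i j => ?_, ?_, ?_, ?_⟩
  · have h := hM.reduces σ i j
    rw [MatRep.map_toHom_apply, ← f.commutes] at h
    exact (ResidueField.map (f : A →+* B)).injective (by
      rw [ResidueField.map_residue, ResidueField.map_residue]; exact h)
  all_goals refine hinj ?_
  · simpa [combX_apply] using hM.x01
  · simpa [combX_apply] using hM.x10
  · simpa [combY_apply] using hM.y01

/-- A normal form is unique in its equivalence class. -/
theorem IsNormal.eq_of_isEquiv [IsLocalHom (algebraMap 𝒪 A)] {M M' : MatRep A}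
    (hM : Φ.IsNormal M) (hM' : Φ.IsNormal M') (h : M.rep.IsEquiv M'.rep) : M = M' := by
  obtain ⟨g, hg, hcomm⟩ := MatRep.isEquiv_iff.mp h
  have hXg : Φ.combX M' * g = g * Φ.combX M := by
    simp [combX, Finset.sum_mul, Finset.mul_sum, hcomm]
  have hYg : Φ.combY M' * g = g * Φ.combY M := by
    simp [combY, Finset.sum_mul, Finset.mul_sum, hcomm]
  have hunit : ∀ {N N' : MatRep A}, Φ.Reduces N → Φ.Reduces N' →
      IsUnit (Φ.combX N 0 0 - Φ.combX N' 1 1) := fun hN hN' => by
    rw [← residue_ne_zero_iff_isUnit, map_sub, residue_combX hN, residue_combX hN']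
    simp
  have e01 := congrFun (congrFun hXg 0) 1
  have e10 := congrFun (congrFun hXg 1) 0
  simp only [Matrix.mul_apply, Fin.sum_univ_two, hM'.x01, hM'.x10, hM.x01, hM.x10, zero_mul,
    mul_zero, add_zero, zero_add] at e01 e10
  have g01 : g 0 1 = 0 := (hunit hM'.reduces hM.reduces).mul_right_eq_zero.mp (by
    linear_combination e01)
  have g10 : g 1 0 = 0 := (hunit hM.reduces hM'.reduces).mul_right_eq_zero.mp (by
    linear_combination -e10)
  have e := congrFun (congrFun hYg 0) 1
  simp only [Matrix.mul_apply, Fin.sum_univ_two, hM'.y01, hM.y01, g01, zero_mul, mul_zero,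
    add_zero, zero_add, one_mul, mul_one] at e
  have g00 : IsUnit (g 0 0) := by
    rw [Matrix.det_fin_two, g01, zero_mul, sub_zero] at hg
    exact isUnit_of_mul_isUnit_left hg
  have hg' : g = g 0 0 • 1 := by
    ext i j
    fin_cases i <;> fin_cases j <;> simp [g01, g10, e]
  refine MatRep.ext (MonoidHom.ext fun σ => ?_)
  have h2 := hcomm σ
  rw [hg', Matrix.mul_smul, mul_one, Matrix.smul_mul, one_mul] at h2
  ext i j
  exact (g00.mul_left_cancel (congrFun (congrFun h2 i) j)).symm

omit [Algebra 𝒪 A] in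
theorem exists_root [IsAdicComplete (maximalIdeal A) A] {q d r : A} (_hq : q ∈ maximalIdeal A)
    (hd : IsUnit d) (hr : r ∈ maximalIdeal A) :
    ∃ v ∈ maximalIdeal A, q * v ^ 2 + d * v = r := by
  nontriviality A
  let p : Polynomial A := .X ^ 2 + .C d * .X - .C (q * r)
  have hp : p.Monic := by
    simp only [p]; monicity!
  obtain ⟨w, hw, hwm⟩ := HenselianRing.is_henselian p hp (0 : A)
    (I := maximalIdeal A) (by simpa [p] using Ideal.mul_mem_left _ q hr)
    (by simpa [p] using hd.map (Ideal.Quotient.mk (maximalIdeal A)))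
  rw [sub_zero] at hwm
  have hdw : IsUnit (d + w) := by
    rw [← residue_ne_zero_iff_isUnit, map_add, (residue_eq_zero_iff w).mpr hwm, add_zero,
      residue_ne_zero_iff_isUnit]
    exact hd
  obtain ⟨e, he⟩ := hdw.exists_left_inv
  refine ⟨r * e, Ideal.mul_mem_right _ _ hr, ?_⟩
  have hw' : w ^ 2 + d * w - q * r = 0 := by simpa [p] using hw
  linear_combination (r + r * w * e) * he - r * e ^ 2 * hw'

/-- Every lift of the residual matrices can be brought to normal form. -/
theorem exists_isNormal_of_reduces [IsAdicComplete (maximalIdeal A) A]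
    [IsLocalHom (algebraMap 𝒪 A)] {N : MatRep A} (hN : Φ.Reduces N) :
    ∃ M : MatRep A, Φ.IsNormal M ∧ N.rep.IsEquiv M.rep := by
  let X := Φ.combX N
  have hmem : ∀ i j, (i, j) ≠ ((0, 0) : Fin 2 × Fin 2) → X i j ∈ maximalIdeal A := by
    intro i j hij
    rw [← residue_eq_zero_iff, residue_combX hN]
    simp only [ne_eq, Prod.mk.injEq] at hij
    simp [hij]
  have hd : IsUnit (X 0 0 - X 1 1) := by
    rw [← residue_ne_zero_iff_isUnit, map_sub, residue_combX hN, residue_combX hN]
    simp
  obtain ⟨v, hv, hv'⟩ := exists_root (hmem 0 1 (by decide)) hd (hmem 1 0 (by decide))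
  obtain ⟨u, hu, hu'⟩ := exists_root (hmem 1 0 (by decide)) (hd.neg) (hmem 0 1 (by decide))
  let g : Matrix (Fin 2) (Fin 2) A := !![1, u; v, 1]
  have hg : IsUnit g.det := by
    rw [← residue_ne_zero_iff_isUnit]
    simp [g, Matrix.det_fin_two, (residue_eq_zero_iff v).mpr hv]
  obtain ⟨N₁, heq₁, hN₁⟩ := N.exists_conj g hg
  have hres : ∀ {M : MatRep A} {P : Matrix (Fin 2) (Fin 2) A}, IsUnit P.det →
      (residue A).mapMatrix P = 1 → Φ.Reduces M → ∀ {M' : MatRep A},
      (∀ σ, M'.toHom σ = P⁻¹ * M.toHom σ * P) → Φ.Reduces M' := by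
    intro M P hP hP1 hM M' hM' σ i j
    have h1 : (residue A).mapMatrix P⁻¹ = 1 := by
      have := congrArg (residue A).mapMatrix (Matrix.nonsing_inv_mul P hP)
      rwa [map_mul, hP1, mul_one, map_one] at this
    have h2 : (residue A).mapMatrix (M'.toHom σ) = (residue A).mapMatrix (M.toHom σ) := by
      rw [hM' σ, map_mul, map_mul, h1, hP1, one_mul, mul_one]
    exact (congrFun (congrFun h2 i) j).trans (hM σ i j)
  have hcomb : ∀ {M : MatRep A} {P : Matrix (Fin 2) (Fin 2) A}, IsUnit P.det →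
      ∀ {M' : MatRep A}, (∀ σ, M'.toHom σ = P⁻¹ * M.toHom σ * P) →
      Φ.combX M' = P⁻¹ * Φ.combX M * P ∧ Φ.combY M' = P⁻¹ * Φ.combY M * P := by
    intro M P _ M' hM'
    constructor <;> simp [combX, combY, Finset.mul_sum, Finset.sum_mul, hM']
  have hg1 : (residue A).mapMatrix g = 1 := by
    ext i j
    fin_cases i <;> fin_cases j <;>
      simp [g, (residue_eq_zero_iff u).mpr hu, (residue_eq_zero_iff v).mpr hv]
  have hred₁ : Φ.Reduces N₁ := hres hg hg1 hN hN₁
  have hX₁ : Φ.combX N₁ = !![X 0 0 + X 0 1 * v, 0; 0, X 1 0 * u + X 1 1] := by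
    rw [(hcomb hg hN₁).1]
    have : X * g = g * !![X 0 0 + X 0 1 * v, 0; 0, X 1 0 * u + X 1 1] := by
      ext i j
      fin_cases i <;> fin_cases j <;> simp [g, Matrix.mul_apply, Fin.sum_univ_two]
      · linear_combination -hu'
      · linear_combination -hv'
    rw [mul_assoc, this, ← mul_assoc, Matrix.nonsing_inv_mul _ hg, one_mul]
  have hy : IsUnit (Φ.combY N₁ 0 1) := by
    rw [← residue_ne_zero_iff_isUnit, residue_combY hred₁]
    simp
  obtain ⟨y, hy⟩ := hy
  let h : Matrix (Fin 2) (Fin 2) A := !![1, 0; 0, ↑y⁻¹]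
  have hh : IsUnit h.det := by simp [h, Matrix.det_fin_two]
  have hinv : h⁻¹ = !![1, 0; 0, (y : A)] := by
    refine Matrix.inv_eq_left_inv ?_
    ext i j
    fin_cases i <;> fin_cases j <;> simp [h, Matrix.mul_apply, Fin.sum_univ_two]
  have hh1 : (residue A).mapMatrix h = 1 := by
    have hy1 : residue A (y : A) = 1 := by rw [hy, residue_combY hred₁]; simp
    ext i j
    fin_cases i <;> fin_cases j <;> simp [h]
    have := congrArg (residue A) y.inv_mul
    rwa [map_mul, hy1, mul_one, map_one] at this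
  obtain ⟨N₂, heq₂, hN₂⟩ := N₁.exists_conj h hh
  refine ⟨N₂, ⟨hres hh hh1 hred₁ hN₂, ?_, ?_, ?_⟩, ?_⟩
  · rw [(hcomb hh hN₂).1, hX₁, hinv]
    simp [h, Matrix.mul_apply, Fin.sum_univ_two]
  · rw [(hcomb hh hN₂).1, hX₁, hinv]
    simp [h, Matrix.mul_apply, Fin.sum_univ_two]
  · rw [(hcomb hh hN₂).2, hinv]
    simp [h, Matrix.mul_apply, Matrix.vecMul, dotProduct, Fin.sum_univ_two, hy]
  · exact ⟨heq₁.some.trans heq₂.some⟩

/-- The residual basis of a matrix representation. -/
noncomputable def residualBasis (M : MatRep A) :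
    Module.Basis (Fin 2) (ResidueField A) M.rep.residual.V :=
  Algebra.TensorProduct.basis (ResidueField A) (Pi.basisFun A (Fin 2))

theorem toMatrix_residual (M : MatRep A) (σ : GQ) :
    LinearMap.toMatrix (residualBasis M) (residualBasis M) (M.rep.residual.ρ σ) =
      (residue A).mapMatrix (M.toHom σ) := by
  have h := LinearMap.toMatrix_baseChange (ResidueField A) (Matrix.toLin' (M.toHom σ))
    (Pi.basisFun A (Fin 2)) (Pi.basisFun A (Fin 2))
  rw [LinearMap.toMatrix_eq_toMatrix', LinearMap.toMatrix'_toLin'] at h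
  exact h

variable (Φ) in
/-- The basis of the residual representation pushed to the residue field of `A`. -/
noncomputable def bottomBasis (A : Type) [CommRing A] [IsLocalRing A] [Algebra 𝒪 A]
    [IsLocalHom (algebraMap 𝒪 A)] :
    Module.Basis (Fin 2) (ResidueField A)
      (ρbar.baseChangeAlong (ResidueField.map (algebraMap 𝒪 A))).V :=
  letI : Algebra (ResidueField 𝒪) (ResidueField A) :=
    (ResidueField.map (algebraMap 𝒪 A)).toAlgebra
  Algebra.TensorProduct.basis (ResidueField A) Φ.basis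

theorem toMatrix_bottom [IsLocalHom (algebraMap 𝒪 A)] (σ : GQ) :
    LinearMap.toMatrix (Φ.bottomBasis A) (Φ.bottomBasis A)
        ((ρbar.baseChangeAlong (ResidueField.map (algebraMap 𝒪 A))).ρ σ) =
      (residue A).mapMatrix ((Φ.r0 σ).map (algebraMap 𝒪 A)) := by
  let _ : Algebra (ResidueField 𝒪) (ResidueField A) :=
    (ResidueField.map (algebraMap 𝒪 A)).toAlgebra
  have h := LinearMap.toMatrix_baseChange (ResidueField A) (ρbar.ρ σ) Φ.basis Φ.basis
  refine h.trans ?_
  ext i j
  show ResidueField.map (algebraMap 𝒪 A) _ = residue A (algebraMap 𝒪 A (Φ.r0 σ i j))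
  rw [← Φ.residue_r0, ResidueField.map_residue]

theorem IsNormal.residual_isEquiv [IsLocalHom (algebraMap 𝒪 A)] {M : MatRep A}
    (hM : Φ.IsNormal M) :
    M.rep.residual.IsEquiv (ρbar.baseChangeAlong (ResidueField.map (algebraMap 𝒪 A))) := by
  refine (residual_isEquiv_iff (residualBasis M) (Φ.bottomBasis A)).mpr
    ⟨1, by simp, fun σ => ?_⟩
  rw [mul_one, one_mul, toMatrix_residual, toMatrix_bottom]
  ext i j
  exact (hM.reduces σ i j).symm

/-- Every deformation of `ρbar` over a complete ring has a normal form. -/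
theorem exists_isNormal [IsAdicComplete (maximalIdeal A) A] [IsLocalHom (algebraMap 𝒪 A)]
    (ρ : GaloisRepAdic A)
    (hres : ρ.residual.IsEquiv (ρbar.baseChangeAlong (ResidueField.map (algebraMap 𝒪 A)))) :
    ∃ M : MatRep A, Φ.IsNormal M ∧ ρ.IsEquiv M.rep := by
  obtain ⟨N, ⟨hρN⟩⟩ := MatRep.exists_rep_isEquiv ρ
  obtain ⟨g, hg, hcomm⟩ := (residual_isEquiv_iff (residualBasis N) (Φ.bottomBasis A)).mp
      ⟨hρN.residual.symm.trans hres.some⟩
  let G : Matrix (Fin 2) (Fin 2) A := g.map (Function.surjInv residue_surjective)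
  have hGg : (residue A).mapMatrix G = g := by
    ext i j
    exact Function.surjInv_eq residue_surjective _
  have hG : IsUnit G.det := by
    rw [← residue_ne_zero_iff_isUnit, RingHom.map_det, hGg]
    exact hg.ne_zero
  have hGi : IsUnit G⁻¹.det := Matrix.isUnit_nonsing_inv_det _ hG
  obtain ⟨N', heq, hN'⟩ := N.exists_conj G⁻¹ hGi
  have hred : Φ.Reduces N' := by
    intro σ i j
    have h1 := hcomm σ
    rw [toMatrix_residual, toMatrix_bottom] at h1
    have h3 : (residue A).mapMatrix (N'.toHom σ) * g = g * (residue A).mapMatrix (N.toHom σ) := by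
      rw [← hGg, ← map_mul, ← map_mul, hN' σ, Matrix.nonsing_inv_nonsing_inv _ hG, mul_assoc,
        Matrix.nonsing_inv_mul _ hG, mul_one]
    have h4 := ((Matrix.isUnit_iff_isUnit_det g).mpr hg).mul_right_cancel (h3.trans h1.symm)
    exact congrFun (congrFun h4 i) j
  obtain ⟨M, hM, heq'⟩ := exists_isNormal_of_reduces hred
  exact ⟨M, hM, ⟨hρN.trans (heq.some.trans heq'.some)⟩⟩

end Frame

end Fermat.Agent.Deformation
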