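import Fermat.Prelude.Def_GaloisRep_DeformationRingData
import Fermat.Agent.Deformation.Levels

/-!
# The universal deformation ring
-/

set_option autoImplicit false

namespace Fermat.Agent.Deformation

open IsLocalRing GaloisRep

variable {𝒪 : Type} [CommRing 𝒪] [IsLocalRing 𝒪] [IsNoetherianRing 𝒪]
  [Finite (ResidueField 𝒪)] {ρbar : ResidualGaloisRep (ResidueField 𝒪)}
  {Φ : Frame ρbar}
  {𝒟 : ∀ ⦃A : Type⦄ [CommRing A] [IsLocalRing A] [Algebra 𝒪 A], GaloisRepAdic A → Prop}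
  {F : Finset (GQ × Fin 2 × Fin 2)}

variable (Φ 𝒟 F) in
/-- The ideal of relations of the universal deformation. -/
noncomputable def relIdeal : Ideal (MvPowerSeries F 𝒪) := ⨅ n, levelIdeal Φ 𝒟 F n

variable (Φ 𝒟 F) in
/-- The universal deformation ring. -/
abbrev UnivRing : Type := MvPowerSeries F 𝒪 ⧸ relIdeal Φ 𝒟 F

theorem maximalIdeal_quotient {P : Type} [CommRing P] [IsLocalRing P] (I : Ideal P)
    [IsLocalRing (P ⧸ I)] :
    maximalIdeal (P ⧸ I) = (maximalIdeal P).map (Ideal.Quotient.mk I) := by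
  have hloc : IsLocalHom (Ideal.Quotient.mk I) :=
    .of_surjective _ Ideal.Quotient.mk_surjective
  refine le_antisymm (fun x hx => ?_) (Ideal.map_le_iff_le_comap.mpr fun x hx => ?_)
  · obtain ⟨y, rfl⟩ := Ideal.Quotient.mk_surjective x
    exact Ideal.mem_map_of_mem _ fun h => hx (h.map _)
  · exact fun h => hx (hloc.map_nonunit _ h)

/-- A quotient of a complete noetherian local ring is complete. -/
theorem isAdicComplete_quotient {P : Type} [CommRing P] [IsLocalRing P] [IsNoetherianRing P]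
    [IsPrecomplete (maximalIdeal P) P] (I : Ideal P) [IsLocalRing (P ⧸ I)] :
    IsAdicComplete (maximalIdeal (P ⧸ I)) (P ⧸ I) := by
  have hpre : IsPrecomplete (maximalIdeal (P ⧸ I)) (P ⧸ I) := by
    refine isPrecomplete_iff.mpr fun f hf => ?_
    choose x hx using fun n => Ideal.Quotient.mk_surjective (f n)
    have hcomap : ∀ n (a : P), Ideal.Quotient.mk I a ∈ maximalIdeal (P ⧸ I) ^ n ↔
        a ∈ I ⊔ maximalIdeal P ^ n := by
      intro n a
      rw [maximalIdeal_quotient, ← Ideal.map_pow, ← Ideal.mem_comap,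
        Ideal.comap_map_of_surjective _ Ideal.Quotient.mk_surjective, ← RingHom.ker_eq_comap_bot,
        Ideal.mk_ker, sup_comm]
    have hstep : ∀ n, x (n + 1) - x n ∈ I ⊔ maximalIdeal P ^ n := fun n => by
      rw [← hcomap, map_sub, hx, hx]
      have h := hf (Nat.le_succ n)
      rw [SModEq.comm, SModEq.sub_mem, smul_eq_mul, Ideal.mul_top] at h
      exact h
    obtain ⟨y, hy, -⟩ := exists_limit (maximalIdeal P) 0 (fun n => I ⊔ maximalIdeal P ^ n)
      (fun n => by simp) (fun n => by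
        refine sup_le (le_sup_left.trans le_sup_left) ?_
        simp) x hstep
    refine ⟨Ideal.Quotient.mk I y, fun n => ?_⟩
    rw [SModEq.comm, SModEq.sub_mem, smul_eq_mul, Ideal.mul_top, ← hx n, ← map_sub, hcomap]
    exact hy n
  exact { }

variable [IsPrecomplete (maximalIdeal 𝒪) 𝒪] (h𝒟 : IsDeformationCondition 𝒪 𝒟)
  (hbar : 𝒟 (GaloisRepAdic.ofResidualGaloisRep ρbar)) (hF : Separates Φ 𝒟 F)

include h𝒟 hbar hF

omit [IsPrecomplete (maximalIdeal 𝒪) 𝒪] in
theorem isLocalRing_univRing : IsLocalRing (UnivRing Φ 𝒟 F) := by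
  have : Nontrivial (UnivRing Φ 𝒟 F) := Ideal.Quotient.nontrivial_iff.mpr
    (ne_top_of_le_ne_top (Ideal.IsMaximal.ne_top inferInstance)
      ((iInf_le _ 0).trans (levelIdeal_le_maximalIdeal h𝒟 hbar hF 0)))
  exact .of_surjective' (Ideal.Quotient.mk _) Ideal.Quotient.mk_surjective

/-- The lifting property: compatible families modulo the levels come from the limit. -/
theorem exists_lift_levels (x : ℕ → MvPowerSeries F 𝒪)
    (hx : ∀ n, x (n + 1) - x n ∈ levelIdeal Φ 𝒟 F n) :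
    ∃ y, ∀ n, y - x n ∈ levelIdeal Φ 𝒟 F n := by
  obtain ⟨y, hy, -⟩ := exists_limit (maximalIdeal (MvPowerSeries F 𝒪)) 1 (levelIdeal Φ 𝒟 F)
    (fun n => (good_levelIdeal h𝒟 hbar hF n).2) (levelIdeal_le_sup h𝒟 hbar hF) x hx
  exact ⟨y, hy⟩

theorem levelIdeal_le_relIdeal_sup (n : ℕ) :
    levelIdeal Φ 𝒟 F n ≤ relIdeal Φ 𝒟 F ⊔ maximalIdeal (MvPowerSeries F 𝒪) ^ (n + 1) := by
  intro x hx
  obtain ⟨y, hy, hyx⟩ := exists_limit (maximalIdeal (MvPowerSeries F 𝒪)) (n + 1)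
    (fun k => levelIdeal Φ 𝒟 F (n + k))
    (fun k => (Ideal.pow_le_pow_right (by omega)).trans (good_levelIdeal h𝒟 hbar hF (n + k)).2)
    (fun k => (levelIdeal_le_sup h𝒟 hbar hF (n + k)).trans
      (sup_le_sup_left (Ideal.pow_le_pow_right (by omega)) _))
    (fun k => if k = 0 then x else 0) (fun k => by
      rcases k with _ | k
      · simpa using hx
      · simp)
  rw [if_pos rfl] at hyx
  have hyJ : y ∈ relIdeal Φ 𝒟 F := by
    refine Submodule.mem_iInf _ |>.mpr fun k => ?_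
    have h := hy (k + 1)
    rw [if_neg (Nat.succ_ne_zero k), sub_zero] at h
    exact levelIdeal_antitone h𝒟 hbar hF (by omega) h
  rw [show x = y + -(y - x) by ring]
  exact Submodule.add_mem_sup hyJ (neg_mem hyx)

/-- Existence of the universal deformation, described by its specialisations to the levels. -/
theorem exists_univRep [IsLocalRing (UnivRing Φ 𝒟 F)] :
    ∃ M : MatRep (UnivRing Φ 𝒟 F), Φ.IsNormal M ∧
      (∀ t : F, coord Φ M t = Ideal.Quotient.mk _ (MvPowerSeries.X t)) ∧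
      ∀ (n : ℕ) {B : Type} [CommRing B] [IsLocalRing B] [Algebra 𝒪 B],
        IsArtinianTestAlgebra 𝒪 B → ∀ (q : UnivRing Φ 𝒟 F →ₐ[𝒪] B)
          (hq : IsLocalHom (q : UnivRing Φ 𝒟 F →+* B)), maximalIdeal B ^ (n + 1) = ⊥ →
          IsDef Φ 𝒟 (M.map (q : UnivRing Φ 𝒟 F →+* B) hq) := by
  classical
  choose hl Mn hT hMn hc using fun n => (good_levelIdeal h𝒟 hbar hF n).1
  choose e he using fun n (t : GQ × Fin 2 × Fin 2) =>
    Ideal.Quotient.mk_surjective (entry (Mn n) t)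
  have hcompat : ∀ n t, e (n + 1) t - e n t ∈ levelIdeal Φ 𝒟 F n := by
    intro n t
    have := hl n
    have := (hT (n + 1)).isArtinian
    let q : (MvPowerSeries F 𝒪 ⧸ levelIdeal Φ 𝒟 F (n + 1)) →ₐ[𝒪]
        MvPowerSeries F 𝒪 ⧸ levelIdeal Φ 𝒟 F n :=
      Ideal.Quotient.factorₐ 𝒪 (levelIdeal_succ_le h𝒟 hbar hF n)
    have hq : IsLocalHom (q : (MvPowerSeries F 𝒪 ⧸ levelIdeal Φ 𝒟 F (n + 1)) →+* MvPowerSeries F 𝒪 ⧸ levelIdeal Φ 𝒟 F n) :=
      isLocalHom_of_isArtinian _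
    have heq : (Mn (n + 1)).map _ hq = Mn n := by
      refine IsDef.ext h𝒟 hF (hT n) ((hMn (n + 1)).map h𝒟 (hT _) (hT n) q hq) (hMn n) fun s hs => ?_
      rw [coord_map, hc (n + 1) ⟨s, hs⟩, hc n ⟨s, hs⟩]
      rfl
    rw [← Ideal.Quotient.eq, he n t, ← heq]
    show _ = q (entry (Mn (n + 1)) t)
    rw [← he (n + 1) t]
    rfl
  choose y hy using fun t => exists_lift_levels h𝒟 hbar hF (fun n => e n t) (fun n => hcompat n t)
  let q : ∀ n, UnivRing Φ 𝒟 F →ₐ[𝒪] MvPowerSeries F 𝒪 ⧸ levelIdeal Φ 𝒟 F n :=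
    fun n => Ideal.Quotient.factorₐ 𝒪 (iInf_le _ n)
  have hqy : ∀ n t, q n (Ideal.Quotient.mk _ (y t)) = entry (Mn n) t := fun n t => by
    rw [← he n t]
    exact Ideal.Quotient.eq.mpr (hy t n)
  have hjoint : ∀ a b : UnivRing Φ 𝒟 F, (∀ n, q n a = q n b) → a = b := by
    intro a b h
    obtain ⟨a, rfl⟩ := Ideal.Quotient.mk_surjective a
    obtain ⟨b, rfl⟩ := Ideal.Quotient.mk_surjective b
    refine Ideal.Quotient.eq.mpr (Submodule.mem_iInf _ |>.mpr fun n => ?_)
    exact Ideal.Quotient.eq.mp (h n)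
  let ρ : GQ →* Matrix (Fin 2) (Fin 2) (UnivRing Φ 𝒟 F) :=
    { toFun := fun σ => Matrix.of fun i j => Ideal.Quotient.mk _ (y (σ, i, j))
      map_one' := by
        refine Matrix.ext fun i j => hjoint _ _ fun n => ?_
        rw [Matrix.of_apply, hqy, entry, map_one, Matrix.one_apply, Matrix.one_apply]
        split_ifs <;> simp
      map_mul' := fun σ τ => by
        refine Matrix.ext fun i j => hjoint _ _ fun n => ?_
        rw [Matrix.of_apply, hqy, entry, map_mul]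
        simp only [Matrix.mul_apply, map_sum, map_mul, Matrix.of_apply, hqy]
        rfl }
  have hqρ : ∀ n σ i j, q n (ρ σ i j) = (Mn n).toHom σ i j := fun n σ i j => hqy n (σ, i, j)
  have hker : ∀ n, ∀ a : UnivRing Φ 𝒟 F, q n a = 0 →
      a ∈ maximalIdeal (UnivRing Φ 𝒟 F) ^ (n + 1) := by
    intro n a ha
    obtain ⟨a, rfl⟩ := Ideal.Quotient.mk_surjective a
    have h : a ∈ levelIdeal Φ 𝒟 F n := Ideal.Quotient.eq_zero_iff_mem.mp ha
    obtain ⟨u, hu, v, hv, rfl⟩ :=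
      Submodule.mem_sup.mp (levelIdeal_le_relIdeal_sup h𝒟 hbar hF n h)
    rw [map_add, Ideal.Quotient.eq_zero_iff_mem.mpr hu, zero_add, maximalIdeal_quotient,
      ← Ideal.map_pow]
    exact Ideal.mem_map_of_mem _ hv
  let M : MatRep (UnivRing Φ 𝒟 F) :=
    { toHom := ρ
      continuous' := fun n => by
        have := (hT n).isArtinian
        obtain ⟨L, hL, hfix⟩ := (Mn n).exists_eq_one
        refine ⟨L, hL, fun σ hσ i j => Ideal.pow_le_pow_right (Nat.le_succ n) (hker n _ ?_)⟩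
        rw [map_sub, hqρ, hfix σ hσ, Matrix.one_apply, Matrix.one_apply]
        split_ifs <;> simp }
  have hMapply : ∀ n σ i j, q n (M.toHom σ i j) = (Mn n).toHom σ i j := hqρ
  refine ⟨M, ⟨fun σ i j => ?_, ?_, ?_, ?_⟩, fun t => hjoint _ _ fun n => ?_, ?_⟩
  · have hq0 : IsLocalHom (q 0 : UnivRing Φ 𝒟 F →+* MvPowerSeries F 𝒪 ⧸ levelIdeal Φ 𝒟 F 0) :=
      .of_surjective _ (Ideal.Quotient.factor_surjective (iInf_le _ 0))
    refine (ResidueField.map (q 0 : UnivRing Φ 𝒟 F →+* MvPowerSeries F 𝒪 ⧸ levelIdeal Φ 𝒟 F 0)).injective ?_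
    rw [ResidueField.map_residue, ResidueField.map_residue]
    show residue _ (q 0 _) = residue _ (q 0 _)
    rw [hMapply, (q 0).commutes]
    exact (hMn 0).normal.reduces σ i j
  · refine hjoint _ _ fun n => ?_
    rw [map_zero, ← (hMn n).normal.x01]
    simp [Frame.combX_apply, map_sum, map_mul, hMapply]
  · refine hjoint _ _ fun n => ?_
    rw [map_zero, ← (hMn n).normal.x10]
    simp [Frame.combX_apply, map_sum, map_mul, hMapply]
  · refine hjoint _ _ fun n => ?_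
    rw [map_one, ← (hMn n).normal.y01]
    simp [Frame.combY_apply, map_sum, map_mul, hMapply]
  · simp only [coord, entry, map_sub, (q n).commutes, hMapply]
    exact hc n t
  · intro n B _ _ _ hB p hp hBn
    have hker' : levelIdeal Φ 𝒟 F n ≤
        RingHom.ker (p.comp (Ideal.Quotient.mkₐ 𝒪 (relIdeal Φ 𝒟 F))) := by
      refine (levelIdeal_le_relIdeal_sup h𝒟 hbar hF n).trans (sup_le (fun a ha => ?_) fun a ha => ?_)
      · rw [RingHom.mem_ker, AlgHom.comp_apply, Ideal.Quotient.mkₐ_eq_mk,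
          Ideal.Quotient.eq_zero_iff_mem.mpr ha, map_zero]
      · rw [RingHom.mem_ker, AlgHom.comp_apply, Ideal.Quotient.mkₐ_eq_mk, ← Ideal.mem_bot, ← hBn]
        refine MatRep.pow_maximalIdeal_map_mem (p : UnivRing Φ 𝒟 F →+* B) hp _ ?_
        rw [maximalIdeal_quotient, ← Ideal.map_pow]
        exact Ideal.mem_map_of_mem _ ha
    let h : (MvPowerSeries F 𝒪 ⧸ levelIdeal Φ 𝒟 F n) →ₐ[𝒪] B :=
      Ideal.Quotient.liftₐ _ _ fun a ha => hker' ha
    have := (hT n).isArtinian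
    have hh : IsLocalHom (h : (MvPowerSeries F 𝒪 ⧸ levelIdeal Φ 𝒟 F n) →+* B) := isLocalHom_of_isArtinian _
    have hMh : M.map (p : UnivRing Φ 𝒟 F →+* B) hp = (Mn n).map (h : (MvPowerSeries F 𝒪 ⧸ levelIdeal Φ 𝒟 F n) →+* B) hh := by
      refine MatRep.ext (MonoidHom.ext fun σ => Matrix.ext fun i j => ?_)
      rw [MatRep.map_toHom_apply, MatRep.map_toHom_apply, ← hMapply n]
      obtain ⟨a, ha⟩ := Ideal.Quotient.mk_surjective (M.toHom σ i j)
      rw [← ha]
      rfl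
    rw [hMh]
    exact (hMn n).map h𝒟 (hT n) hB h hh

end Fermat.Agent.Deformation
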